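import Fermat.Agent.ClassField94.Capitulation
import Fermat.Agent.CycloTower.Main

/-!
# Classes and units of `ℚ(ζ_p)` fixed by the Galois group

Only `p` ramifies in `ℚ(ζ_p)/ℚ` and norms are positive, so no class but the trivial one is fixed by the Galois
group, and a totally positive unit whose Galois ratios are squares is a norm `v v̄` from the units of `ℚ(ζ_p)`.
-/

set_option autoImplicit false

noncomputable section

open NumberField IsCMField
open scoped Pointwise nonZeroDivisors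

namespace FA.ClassField94

variable {K : Type} [Field K] [NumberField K] [IsCMField K]

/-- The norm to the real subfield. -/
theorem algebraMap_norm_real (x : K) :
    algebraMap (maximalRealSubfield K) K (Algebra.norm (maximalRealSubfield K) x) = x * complexConj K x := by
  classical
  have hne : (1 : K ≃ₐ[maximalRealSubfield K] K) ≠ complexConj K := (complexConj_ne_one K).symm
  have huniv : (Finset.univ : Finset (K ≃ₐ[maximalRealSubfield K] K)) = {1, complexConj K} := by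
    refine (Finset.eq_univ_of_card _ ?_).symm
    rw [Finset.card_pair hne, ← Nat.card_eq_fintype_card, IsGalois.card_aut_eq_finrank,
      Algebra.IsQuadraticExtension.finrank_eq_two (maximalRealSubfield K) K]
  rw [Algebra.norm_eq_prod_automorphisms, huniv, Finset.prod_pair hne]
  rfl

/-- Norms from a CM field are positive. -/
theorem norm_rat_pos {x : K} (hx : x ≠ 0) : 0 < Algebra.norm ℚ x := by
  classical
  set z := Algebra.norm (maximalRealSubfield K) x with hz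
  have key : ∀ φ : maximalRealSubfield K →ₐ[ℚ] ℂ, ∃ r : ℝ, 0 < r ∧ φ z = (r : ℂ) := fun φ => by
    set ψ := ComplexEmbedding.lift K φ.toRingHom
    refine ⟨Complex.normSq (ψ x), Complex.normSq_pos.mpr ((map_ne_zero ψ).mpr hx), ?_⟩
    rw [← Complex.mul_conj, ← complexEmbedding_complexConj, ← map_mul, ← algebraMap_norm_real]
    exact (DFunLike.congr_fun (ComplexEmbedding.lift_comp_algebraMap K φ.toRingHom) z).symm
  choose r hr hφ using key
  have h := Algebra.norm_eq_prod_embeddings ℚ ℂ z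
  rw [hz, Algebra.norm_norm, Finset.prod_congr rfl fun φ _ => hφ φ, ← Complex.ofReal_prod, eq_ratCast] at h
  have h' : ((Algebra.norm ℚ x : ℚ) : ℝ) = ∏ φ : maximalRealSubfield K →ₐ[ℚ] ℂ, r φ := by exact_mod_cast h
  exact_mod_cast (h' ▸ Finset.prod_pos fun φ _ => hr φ : (0 : ℝ) < ((Algebra.norm ℚ x : ℚ) : ℝ))

variable {p : ℕ} [Fact p.Prime] [IsCyclotomicExtension {p} ℚ K]

omit [IsCMField K] in
/-- **Fixed ideals** over any subfield: powers of `(1 - ζ)` times extended ideals. -/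
theorem exists_decomp_prime {F : Type} [Field F] [NumberField F] [Algebra F K] [IsGalois F K] {ζ : K}
    (hζ : IsPrimitiveRoot ζ p) {B : Ideal (𝓞 K)} (hB : B ≠ ⊥) (hfix : ∀ g : K ≃ₐ[F] K, g • B = B) :
    ∃ (k : ℕ) (J : Ideal (𝓞 F)),
      B = Ideal.span {hζ.toInteger - 1} ^ k * J.map (algebraMap (𝓞 F) (𝓞 K)) := by
  have hp : p.Prime := Fact.out
  have : NeZero p := ⟨hp.ne_zero⟩
  have : IsCyclotomicExtension {p ^ (0 + 1)} ℚ K := by rw [zero_add, pow_one]; infer_instance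
  have hζ' : IsPrimitiveRoot ζ (p ^ (0 + 1)) := by rwa [zero_add, pow_one]
  have hlam : Prime (hζ.toInteger - 1) := hζ.zeta_sub_one_prime'
  have hπ : (Ideal.span {hζ.toInteger - 1}).IsMaximal :=
    ((Ideal.span_singleton_prime hlam.ne_zero).mpr hlam).isMaximal
      (fun e => hlam.ne_zero (Ideal.span_singleton_eq_bot.mp e))
  refine FA.CycloTower.exists_decomp hπ (fun g => ?_)
    (fun P _ hP hπP => FA.CycloTower.ramificationIdx_eq_one (k := 0) hζ' hP hπP) B hB hfix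
  have hgζ : g • hζ.toInteger - 1 = g • (hζ.toInteger - 1) := by rw [smul_sub, smul_one]
  have hprim : IsPrimitiveRoot (g • hζ.toInteger) p :=
    hζ.toInteger_isPrimitiveRoot.map_of_injective (f := MulSemiringAction.toRingHom (K ≃ₐ[F] K) (𝓞 K) g)
      (MulAction.injective g)
  obtain ⟨i, hi, he⟩ := hζ.toInteger_isPrimitiveRoot.eq_pow_of_pow_eq_one hprim.pow_eq_one
  rw [FA.CycloTower.smul_span, ← hgζ, ← he, Ideal.span_singleton_eq_span_singleton]
  refine (IsPrimitiveRoot.associated_sub_one_pow_sub_one_of_coprime hζ.toInteger_isPrimitiveRoot ?_).symm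
  refine (Nat.Coprime.symm ((hp.coprime_iff_not_dvd).mpr fun hd => hprim.ne_one hp.one_lt ?_))
  obtain ⟨c, rfl⟩ := hd
  rw [← he, pow_mul, hζ.toInteger_isPrimitiveRoot.pow_eq_one, one_pow]

omit [IsCyclotomicExtension {p} ℚ K] [IsCMField K] [Fact p.Prime] in
/-- An integral element fixed by the group is an integer. -/
theorem exists_int_eq [IsGalois ℚ K] {q : 𝓞 K} (hq : ∀ g : K ≃ₐ[ℚ] K, g (q : K) = q) :
    ∃ c : ℤ, q = (c : 𝓞 K) := by
  obtain ⟨r, hr⟩ := (IsGalois.mem_range_algebraMap_iff_fixed (F := ℚ) (q : K)).mpr hq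
  have hint : IsIntegral ℤ r :=
    (isIntegral_algebraMap_iff (algebraMap ℚ K).injective).mp (by rw [hr]; exact q.isIntegral_coe)
  obtain ⟨c, hc⟩ := IsIntegrallyClosed.isIntegral_iff.mp hint
  refine ⟨c, RingOfIntegers.ext ?_⟩
  rw [← hr, ← hc]
  simp

omit [IsCMField K] in
/-- An ideal of `ℚ` is generated by an integer. -/
theorem exists_int_span (J : Ideal (𝓞 ℚ)) :
    ∃ d : ℤ, J.map (algebraMap (𝓞 ℚ) (𝓞 K)) = Ideal.span {(d : 𝓞 K)} := by
  have : IsPrincipalIdealRing (𝓞 ℚ) :=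
    IsPrincipalIdealRing.of_surjective Rat.ringOfIntegersEquiv.symm.toRingHom Rat.ringOfIntegersEquiv.symm.surjective
  obtain ⟨f, rfl⟩ := (IsPrincipalIdealRing.principal J).principal
  obtain ⟨d, rfl⟩ := Rat.ringOfIntegersEquiv.symm.surjective f
  refine ⟨d, ?_⟩
  rw [Ideal.submodule_span_eq, Ideal.map_span, Set.image_singleton]
  simp

include p in
/-- **No ambiguous classes**: a class fixed by the Galois group is trivial. -/
theorem fixed_class_eq_one {σ : K ≃ₐ[ℚ] K} (hσ : ∀ g, g ∈ Subgroup.zpowers σ) {y : ClassGroup (𝓞 K)}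
    (hy : FA.CycloTower.actCl σ y = y) : y = 1 := by
  have hp : p.Prime := Fact.out
  have : NeZero p := ⟨hp.ne_zero⟩
  have : IsGalois ℚ K := IsCyclotomicExtension.isGalois {p} ℚ K
  obtain ⟨⟨A, hA⟩, rfl⟩ := ClassGroup.mk0_surjective y
  have hA0 : A ≠ ⊥ := mem_nonZeroDivisors_iff_ne_zero.mp hA
  have hA' : σ • A ∈ (Ideal (𝓞 K))⁰ := mem_nonZeroDivisors_iff_ne_zero.mpr fun e => hA0 (by
    have := congrArg (σ⁻¹ • ·) e
    simpa [Ideal.zero_eq_bot, inv_smul_smul] using this)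
  have hcl := (FA.CycloTower.actCl_mk0 σ ⟨A, hA⟩ ⟨σ • A, hA'⟩ rfl).symm.trans hy
  obtain ⟨x, y, hx, hy0, hxy⟩ := ClassGroup.mk0_eq_mk0_iff.mp hcl
  have hN := congrArg (Ideal.relNorm (𝓞 ℚ)) hxy
  rw [map_mul, map_mul, Ideal.relNorm_smul, Ideal.relNorm_singleton, Ideal.relNorm_singleton] at hN
  obtain ⟨u, hu⟩ := Ideal.span_singleton_eq_span_singleton.mp
    (mul_right_cancel₀ (fun e => hA0 (Ideal.relNorm_eq_bot_iff.mp e)) hN)
  have hxK : (x : K) ≠ 0 := RingOfIntegers.coe_ne_zero_iff.mpr hx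
  have hyK : (y : K) ≠ 0 := RingOfIntegers.coe_ne_zero_iff.mpr hy0
  have hu1 : Algebra.norm ℚ (x : K) = Algebra.norm ℚ (y : K) := by
    rw [FA.CycloTower.intNorm_eq_norm, FA.CycloTower.intNorm_eq_norm] at hu
    have h2 := congrArg (fun t : 𝓞 ℚ => (t : ℚ)) hu
    simp only [map_mul, RingOfIntegers.coe_norm] at h2
    obtain ⟨c, hc⟩ : ∃ c : ℤ, algebraMap (𝓞 ℚ) ℚ (u : 𝓞 ℚ) = c ∧ IsUnit c :=
      ⟨Rat.ringOfIntegersEquiv (u : 𝓞 ℚ), (Rat.ringOfIntegersEquiv_apply_coe _).symm,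
        u.isUnit.map Rat.ringOfIntegersEquiv⟩
    rw [hc.1] at h2
    rcases Int.isUnit_iff.mp hc.2 with h | h <;> rw [h] at h2
    · simpa using h2
    · have h3 := norm_rat_pos hxK
      have h4 := norm_rat_pos hyK
      rw [← h2] at h4
      push_cast at h4
      linarith
  have hr : Algebra.norm ℚ ((y : K) / (x : K)) = 1 := by
    rw [div_eq_mul_inv, map_mul, Algebra.norm_inv, hu1, mul_inv_cancel₀ (Algebra.norm_ne_zero_iff.mpr hyK)]
  obtain ⟨β, hβ, hβr⟩ := FA.CycloTower.exists_integral_hilbert90 hσ hr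
  have hkey : y * (σ • β) = x * β := by
    refine RingOfIntegers.coe_injective ?_
    rw [div_mul_eq_mul_div, div_eq_iff hxK] at hβr
    simp only [map_mul, FA.CycloTower.coe_smul_int] at hβr ⊢
    linear_combination hβr
  set B := A * Ideal.span {β}
  have hB : B ≠ ⊥ := mul_ne_zero hA0 (fun e => hβ (Ideal.span_singleton_eq_bot.mp e))
  have hBσ : σ • B = B := by
    refine mul_left_cancel₀ (a := Ideal.span {x}) (fun e => hx (Ideal.span_singleton_eq_bot.mp e)) ?_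
    rw [smul_mul', FA.CycloTower.smul_span]
    calc Ideal.span {x} * (σ • A * Ideal.span {σ • β}) = Ideal.span {y} * A * Ideal.span {σ • β} := by
          rw [← mul_assoc, hxy]
      _ = A * Ideal.span {y * (σ • β)} := by rw [← Ideal.span_singleton_mul_span_singleton]; ring
      _ = A * (Ideal.span {x} * Ideal.span {β}) := by rw [hkey, Ideal.span_singleton_mul_span_singleton]
      _ = Ideal.span {x} * B := by ring
  have hζ := IsCyclotomicExtension.zeta_spec p ℚ K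
  obtain ⟨k, J, hJ⟩ := exists_decomp_prime hζ hB (FA.CycloTower.smul_fixed_of_generator hσ hBσ)
  obtain ⟨d, hd⟩ := exists_int_span (K := K) J
  have hβ' : Ideal.span {β} ∈ (Ideal (𝓞 K))⁰ :=
    mem_nonZeroDivisors_iff_ne_zero.mpr fun e => hβ (Ideal.span_singleton_eq_bot.mp e)
  have h1 : ClassGroup.mk0 ⟨Ideal.span {β}, hβ'⟩ = 1 := (ClassGroup.mk0_eq_one_iff hβ').mpr ⟨⟨β, rfl⟩⟩
  suffices h2 : ClassGroup.mk0 (⟨A, hA⟩ * ⟨Ideal.span {β}, hβ'⟩) = 1 by rwa [map_mul, h1, mul_one] at h2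
  refine FA.CycloTower.mk0_eq_one_of_eq_span _ ((hζ.toInteger - 1) ^ k * (d : 𝓞 K)) ?_
  show B = _
  rw [hJ, hd, Ideal.span_singleton_pow, Ideal.span_singleton_mul_span_singleton]

include p in
/-- **Totally positive units with square Galois ratio are norms.** -/
theorem exists_mul_conj_eq (h3 : 3 ≤ p) {σ : K ≃ₐ[ℚ] K} (hσ : ∀ g, g ∈ Subgroup.zpowers σ) {u w : (𝓞 K)ˣ}
    (hu : ∀ φ : K →+* ℂ, ∃ r : ℝ, 0 < r ∧ φ ((u : 𝓞 K) : K) = (r : ℂ))
    (huw : σ ((u : 𝓞 K) : K) = ((u : 𝓞 K) : K) * ((w : 𝓞 K) : K) ^ 2) :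
    ∃ v : (𝓞 K)ˣ, ((u : 𝓞 K) : K) = ((v : 𝓞 K) : K) * complexConj K ((v : 𝓞 K) : K) := by
  have hp : p.Prime := Fact.out
  have : NeZero p := ⟨hp.ne_zero⟩
  have : IsGalois ℚ K := IsCyclotomicExtension.isGalois {p} ℚ K
  have hw0 : ((w : 𝓞 K) : K) ≠ 0 := RingOfIntegers.coe_ne_zero_iff.mpr w.ne_zero
  have hN : Algebra.norm ℚ ((w : 𝓞 K) : K) = 1 := by
    have habs := NumberField.isUnit_iff_norm.mp w.isUnit
    rw [RingOfIntegers.coe_norm] at habs
    rwa [abs_of_pos (norm_rat_pos hw0)] at habs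
  obtain ⟨δ, hδ, hδw⟩ := FA.CycloTower.exists_integral_hilbert90 hσ hN
  have hkey : (w : 𝓞 K) * (σ • δ) = δ := RingOfIntegers.coe_injective (by
    simp only [map_mul, FA.CycloTower.coe_smul_int]; exact hδw)
  have hB : Ideal.span {δ} ≠ ⊥ := fun e => hδ (Ideal.span_singleton_eq_bot.mp e)
  have hBσ : σ • Ideal.span {δ} = Ideal.span {δ} := by
    rw [FA.CycloTower.smul_span]
    conv_rhs => rw [← hkey, Ideal.span_singleton_mul_left_unit w.isUnit]
  have hζ := IsCyclotomicExtension.zeta_spec p ℚ K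
  obtain ⟨k, J, hJ⟩ := exists_decomp_prime hζ hB (FA.CycloTower.smul_fixed_of_generator hσ hBσ)
  obtain ⟨d, hd⟩ := exists_int_span (K := K) J
  set π : 𝓞 K := hζ.toInteger - 1
  rw [hd, Ideal.span_singleton_pow, Ideal.span_singleton_mul_span_singleton,
    Ideal.span_singleton_eq_span_singleton] at hJ
  obtain ⟨v₀, hv₀⟩ := hJ.symm
  set Y : 𝓞 K := π ^ k * (v₀ : 𝓞 K)
  have hδY : δ = (d : 𝓞 K) * Y := by rw [← hv₀]; ring
  have hd0 : (d : K) ≠ 0 := fun e => hδ (RingOfIntegers.coe_injective (by rw [hδY, map_mul]; simp [e]))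
  have hqfix : ∀ g : K ≃ₐ[ℚ] K, g (((u : 𝓞 K) * Y ^ 2 : 𝓞 K) : K) = (((u : 𝓞 K) * Y ^ 2 : 𝓞 K) : K) := by
    have h1 : σ (((u : 𝓞 K) * Y ^ 2 : 𝓞 K) : K) = (((u : 𝓞 K) * Y ^ 2 : 𝓞 K) : K) := by
      have e : (δ : K) = (d : K) * (Y : K) := by rw [hδY]; simp
      have e1 : ((w : 𝓞 K) : K) * σ (δ : K) = δ := hδw
      rw [e, map_mul, map_intCast] at e1
      simp only [map_mul, map_pow]
      rw [huw]
      apply mul_left_cancel₀ (pow_ne_zero 2 hd0)
      linear_combination ((u : 𝓞 K) : K) * (((w : 𝓞 K) : K) * ((d : K) * σ (Y : K)) + (d : K) * (Y : K)) * e1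
    exact fun g => (Subgroup.zpowers_le.mpr
      (show σ ∈ MulAction.stabilizer (K ≃ₐ[ℚ] K) (((u : 𝓞 K) * Y ^ 2 : 𝓞 K) : K) from h1)) (hσ g)
  obtain ⟨c, hc⟩ := exists_int_eq hqfix
  set cK := RingOfIntegers.mapRingEquiv (complexConj K).toRingEquiv
  have hcu : cK (u : 𝓞 K) = u := by
    let φ : K →+* ℂ := Classical.choice (inferInstance : Nonempty _)
    obtain ⟨r, -, hr⟩ := hu φ
    refine RingOfIntegers.ext (φ.injective ?_)
    show φ (complexConj K ((u : 𝓞 K) : K)) = _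
    rw [complexEmbedding_complexConj, hr, Complex.conj_ofReal]
  have hY0 : Y ≠ 0 := fun e => hδ (by rw [hδY, e, mul_zero])
  have hc' : (u : 𝓞 K) * cK Y ^ 2 = (c : 𝓞 K) := by
    have h := congrArg cK hc
    rwa [map_mul, map_pow, hcu, map_intCast] at h
  have hsq : ((u : 𝓞 K) * (Y * cK Y)) ^ 2 = ((|c| : ℤ) : 𝓞 K) ^ 2 := by
    rw [← Int.cast_pow, sq_abs, Int.cast_pow, pow_two (c : 𝓞 K)]
    nth_rewrite 1 [← hc]
    rw [← hc']
    ring
  have hnorm : (u : 𝓞 K) * (Y * cK Y) = ((|c| : ℤ) : 𝓞 K) := by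
    refine (sq_eq_sq_iff_eq_or_eq_neg.mp hsq).resolve_right fun h => ?_
    let φ : K →+* ℂ := Classical.choice (inferInstance : Nonempty _)
    obtain ⟨r, hr0, hr⟩ := hu φ
    have h' : φ ((u : 𝓞 K) : K) * (φ (Y : K) * φ (complexConj K (Y : K))) = -((|c| : ℤ) : ℂ) := by
      have h2 := congrArg (fun t : 𝓞 K => φ (t : K)) h
      simp only [map_mul, map_neg, map_intCast] at h2
      exact h2
    rw [complexEmbedding_complexConj, Complex.mul_conj, hr, ← Complex.ofReal_mul, ← Complex.ofReal_intCast,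
      ← Complex.ofReal_neg, Complex.ofReal_inj] at h'
    have hpos : 0 < r * Complex.normSq (φ (Y : K)) :=
      mul_pos hr0 (Complex.normSq_pos.mpr ((map_ne_zero φ).mpr (RingOfIntegers.coe_ne_zero_iff.mpr hY0)))
    have : (0 : ℝ) ≤ ((|c| : ℤ) : ℝ) := by exact_mod_cast abs_nonneg c
    linarith
  have hodd := hp.eq_two_or_odd
  have : IsCyclotomicExtension {p ^ (0 + 1)} ℚ K := by rw [zero_add, pow_one]; infer_instance
  have hπN : Ideal.absNorm (Ideal.span {π}) = p := by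
    rw [Ideal.absNorm_span_singleton, hζ.norm_toInteger_sub_one_of_prime_ne_two' (by omega), Int.natAbs_natCast]
  have hcN : c.natAbs ^ (p - 1) = p ^ (2 * k) := by
    have h := congrArg (fun t : 𝓞 K => Ideal.absNorm (Ideal.span {t})) hc
    simp only [mul_pow, Y] at h
    rw [show (u : 𝓞 K) * ((π ^ k) ^ 2 * (v₀ : 𝓞 K) ^ 2) = π ^ (2 * k) * ((u * v₀ ^ 2 : (𝓞 K)ˣ) : 𝓞 K) by
      push_cast; ring, Ideal.span_singleton_mul_right_unit (u * v₀ ^ 2).isUnit, ← Ideal.span_singleton_pow, map_pow,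
      hπN, Ideal.absNorm_span_singleton, ← map_intCast (algebraMap ℤ (𝓞 K)), Algebra.norm_algebraMap,
      Int.natAbs_pow, RingOfIntegers.rank, IsCyclotomicExtension.Rat.finrank p K, Nat.totient_prime hp] at h
    simpa using h.symm
  obtain ⟨j, -, hj⟩ := (Nat.dvd_prime_pow hp).mp
    ((dvd_pow_self c.natAbs (by omega : p - 1 ≠ 0)).trans (dvd_of_eq hcN))
  obtain ⟨m, rfl⟩ : ∃ m, p = 2 * m + 1 := ⟨(p - 1) / 2, by omega⟩
  have hk : k = m * j := by
    rw [hj, ← pow_mul] at hcN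
    have := Nat.pow_right_injective hp.two_le hcN
    rw [show 2 * m + 1 - 1 = 2 * m by omega] at this
    linarith
  set z := hζ.toInteger
  set ρ : 𝓞 K := ∏ i ∈ Finset.range m, (1 - z ^ (i + 1))
  have hcζ : cK z = z ^ (2 * m) := by
    have h1 : cK z * z = 1 := by
      let φ : K →+* ℂ := Classical.choice (inferInstance : Nonempty _)
      refine RingOfIntegers.ext (φ.injective ?_)
      show φ (complexConj K (z : K) * (z : K)) = φ 1
      rw [map_mul, complexEmbedding_complexConj, map_one, ← Complex.normSq_eq_conj_mul_self,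
        Complex.normSq_eq_norm_sq, Complex.norm_eq_one_of_pow_eq_one
          (show φ (z : K) ^ (2 * m + 1) = 1 by rw [← map_pow]; exact (congrArg φ hζ.pow_eq_one).trans (map_one φ))
          (by omega)]
      norm_num
    have h2 : z ^ (2 * m) * z = 1 := by rw [← pow_succ, hζ.toInteger_isPrimitiveRoot.pow_eq_one]
    exact mul_right_cancel₀ (right_ne_zero_of_mul_eq_one h1) (h1.trans h2.symm)
  have hρ : ρ * cK ρ = ((2 * m + 1 : ℕ) : 𝓞 K) := by
    rw [Nat.cast_succ (2 * m), ← IsPrimitiveRoot.prod_one_sub_pow_eq_order hζ.toInteger_isPrimitiveRoot,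
      show Finset.range (2 * m) = Finset.range (m + m) by rw [two_mul], Finset.prod_range_add]
    congr 1
    rw [← Finset.prod_range_reflect (fun i => 1 - z ^ (m + i + 1)), map_prod]
    refine Finset.prod_congr rfl fun i hi => ?_
    have hi' := Finset.mem_range.mp hi
    rw [map_sub, map_one, map_pow, hcζ, ← pow_mul]
    congr 1
    rw [show 2 * m * (i + 1) = m + (m - 1 - i) + 1 + (2 * m + 1) * i by
      zify [show i ≤ m - 1 by omega, show 1 ≤ m by omega]; ring, pow_add, pow_mul,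
      hζ.toInteger_isPrimitiveRoot.pow_eq_one, one_pow, mul_one]
  have hass : Associated (π ^ m) ρ := by
    rw [show π ^ m = ∏ _x ∈ Finset.range m, π by simp]
    refine Associated.prod _ _ _ fun i hi => ?_
    have hi' := Finset.mem_range.mp hi
    refine (hζ.toInteger_isPrimitiveRoot.associated_sub_one_pow_sub_one_of_coprime (j := i + 1)
      (Nat.Coprime.symm (hp.coprime_iff_not_dvd.mpr fun hd => ?_))).trans ?_
    · have := Nat.le_of_dvd (by omega) hd
      omega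
    · exact ⟨-1, by rw [Units.val_neg, Units.val_one, mul_neg_one, neg_sub]⟩
  obtain ⟨e, he⟩ := hass.pow_pow (n := j)
  rw [← pow_mul, ← hk] at he
  refine ⟨e * v₀⁻¹, ?_⟩
  have hfin : (u : 𝓞 K) * (Y * cK Y) = (π ^ k * (e : 𝓞 K)) * cK (π ^ k * (e : 𝓞 K)) := by
    rw [hnorm, he, map_pow, ← mul_pow, hρ, ← Nat.cast_pow, ← hj]
    exact (Int.cast_natCast _).symm.trans (congrArg _ (Int.natCast_natAbs c)) |>.symm
  have hπ0 : π ^ k ≠ 0 := fun e' => hY0 (by simp [Y, e'])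
  have hu' : (u : 𝓞 K) = ((e * v₀⁻¹ : (𝓞 K)ˣ) : 𝓞 K) * cK ((e * v₀⁻¹ : (𝓞 K)ˣ) : 𝓞 K) := by
    have hπc : π ^ k * cK (π ^ k) ≠ 0 := mul_ne_zero hπ0 ((map_ne_zero_iff cK cK.injective).mpr hπ0)
    have h1 : (u : 𝓞 K) * ((v₀ : 𝓞 K) * cK (v₀ : 𝓞 K)) = (e : 𝓞 K) * cK (e : 𝓞 K) := mul_left_cancel₀ hπc (by
      simp only [Y, map_mul] at hfin
      linear_combination hfin)
    have hinv : (v₀ : 𝓞 K) * ((v₀⁻¹ : (𝓞 K)ˣ) : 𝓞 K) = 1 := v₀.mul_inv
    have hinv' : cK (v₀ : 𝓞 K) * cK ((v₀⁻¹ : (𝓞 K)ˣ) : 𝓞 K) = 1 := by rw [← map_mul, hinv, map_one]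
    rw [Units.val_mul, map_mul]
    calc (u : 𝓞 K) = (u : 𝓞 K) * (((v₀ : 𝓞 K) * ((v₀⁻¹ : (𝓞 K)ˣ) : 𝓞 K)) *
          (cK (v₀ : 𝓞 K) * cK ((v₀⁻¹ : (𝓞 K)ˣ) : 𝓞 K))) := by rw [hinv, hinv', one_mul, mul_one]
      _ = _ := by linear_combination (((v₀⁻¹ : (𝓞 K)ˣ) : 𝓞 K) * cK ((v₀⁻¹ : (𝓞 K)ˣ) : 𝓞 K)) * h1
  exact congrArg (fun t : 𝓞 K => (t : K)) hu' |>.trans (map_mul _ _ _)

end FA.ClassField94
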