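import Fermat.Agent.CycloTower.Step
import Fermat.Agent.ExtVanish.Residue

/-!
# Classes which do not capitulate

Along a cyclic extension of CM fields in which every root of unity of relative norm one is a quotient `η/σ η`, an
ideal class inverted by conjugation which becomes principal has order at most two; any class which becomes principal
is killed by the degree. In a CM field a class times its conjugate comes from the real subfield.
-/

set_option autoImplicit false

noncomputable section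

open NumberField IsCMField
open scoped Pointwise nonZeroDivisors

namespace FA.ClassField94

section CM

variable (K : Type*) [Field K] [NumberField K] [IsCMField K]

/-- Conjugation on ideals. -/
def conjIdeal (I : (Ideal (𝓞 K))⁰) : (Ideal (𝓞 K))⁰ :=
  Ideal.mapNonZero (RingOfIntegers.mapRingEquiv (complexConj K).toRingEquiv) I

/-- Conjugation on classes. -/
def conjClass : ClassGroup (𝓞 K) ≃* ClassGroup (𝓞 K) :=
  ClassGroup.mulEquiv (RingOfIntegers.mapRingEquiv (complexConj K).toRingEquiv)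

theorem conjClass_mk0 (I : (Ideal (𝓞 K))⁰) : conjClass K (ClassGroup.mk0 I) = ClassGroup.mk0 (conjIdeal K I) :=
  ClassGroup.mulEquiv_mk0 _ I

theorem conjClass_conjClass (x : ClassGroup (𝓞 K)) : conjClass K (conjClass K x) = x := by
  have h : (RingOfIntegers.mapRingEquiv (complexConj K).toRingEquiv).trans
      (RingOfIntegers.mapRingEquiv (complexConj K).toRingEquiv) = RingEquiv.refl (𝓞 K) :=
    RingEquiv.ext fun t => RingOfIntegers.ext (complexConj_apply_apply K (t : K))
  rw [conjClass, ← ClassGroup.mulEquiv_trans_apply, h, ClassGroup.mulEquiv_refl_apply]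

/-- An element times its conjugate is the norm. -/
theorem algebraMap_intNorm (a : 𝓞 K) :
    algebraMap (𝓞 (maximalRealSubfield K)) (𝓞 K) (Algebra.intNorm (𝓞 (maximalRealSubfield K)) (𝓞 K) a) =
      a * RingOfIntegers.mapRingEquiv (complexConj K).toRingEquiv a := by
  classical
  have hne : (1 : K ≃ₐ[maximalRealSubfield K] K) ≠ complexConj K := (complexConj_ne_one K).symm
  have huniv : (Finset.univ : Finset (K ≃ₐ[maximalRealSubfield K] K)) = {1, complexConj K} := by
    refine (Finset.eq_univ_of_card _ ?_).symm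
    rw [Finset.card_pair hne, ← Nat.card_eq_fintype_card, IsGalois.card_aut_eq_finrank,
      Algebra.IsQuadraticExtension.finrank_eq_two (maximalRealSubfield K) K]
  refine RingOfIntegers.ext ?_
  show algebraMap (maximalRealSubfield K) K
    (algebraMap (𝓞 (maximalRealSubfield K)) (maximalRealSubfield K) _) = (a : K) * complexConj K (a : K)
  rw [Algebra.algebraMap_intNorm (L := K), Algebra.norm_eq_prod_automorphisms, huniv, Finset.prod_pair hne]
  rfl

/-- **An ideal times its conjugate is extended**. -/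
theorem map_relNorm_eq (I : (Ideal (𝓞 K))⁰) :
    (Ideal.relNorm (𝓞 (maximalRealSubfield K)) (I : Ideal (𝓞 K))).map
      (algebraMap (𝓞 (maximalRealSubfield K)) (𝓞 K)) = (I : Ideal (𝓞 K)) * (conjIdeal K I : Ideal (𝓞 K)) := by
  have hdvd : (I : Ideal (𝓞 K)) * (conjIdeal K I : Ideal (𝓞 K)) ∣
      (Ideal.relNorm (𝓞 (maximalRealSubfield K)) (I : Ideal (𝓞 K))).map
        (algebraMap (𝓞 (maximalRealSubfield K)) (𝓞 K)) := by
    rw [Ideal.dvd_iff_le, Ideal.map_relNorm, Ideal.span_le]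
    rintro _ ⟨a, ha, rfl⟩
    rw [Function.comp_apply, algebraMap_intNorm]
    exact Ideal.mul_mem_mul ha (Ideal.mem_map_of_mem _ ha)
  refine (FA.Ext.eq_of_dvd_of_absNorm_eq hdvd (mul_ne_zero (mem_nonZeroDivisors_iff_ne_zero.mp I.2)
    (mem_nonZeroDivisors_iff_ne_zero.mp (conjIdeal K I).2)) ?_).symm
  let e : 𝓞 K ≃ₐ[𝓞 (maximalRealSubfield K)] 𝓞 K :=
    AlgEquiv.ofRingEquiv (f := RingOfIntegers.mapRingEquiv (complexConj K).toRingEquiv)
      (fun x => RingOfIntegers.ext ((complexConj K).commutes (x : maximalRealSubfield K)))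
  have hconj : Ideal.absNorm (conjIdeal K I : Ideal (𝓞 K)) = Ideal.absNorm (I : Ideal (𝓞 K)) := by
    rw [← Ideal.absNorm_relNorm (𝓞 (maximalRealSubfield K)) (𝓞 K),
      ← Ideal.absNorm_relNorm (𝓞 (maximalRealSubfield K)) (𝓞 K) (I : Ideal (𝓞 K))]
    exact congrArg Ideal.absNorm (Ideal.relNorm_map_algEquiv e (I : Ideal (𝓞 K)))
  rw [map_mul, hconj, Ideal.absNorm_algebraMap, Ideal.absNorm_relNorm,
    ← IsFractionRing.finrank_eq (𝓞 (maximalRealSubfield K)) (maximalRealSubfield K) (𝓞 K) K,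
    Algebra.IsQuadraticExtension.finrank_eq_two (maximalRealSubfield K) K, pow_two]

/-- **A class times its conjugate comes from the real subfield.** -/
theorem mul_conjClass_mem_range (x : ClassGroup (𝓞 K)) :
    x * conjClass K x ∈ (ClassGroup.extendedHom (𝓞 (maximalRealSubfield K)) (𝓞 K)).range := by
  obtain ⟨I, rfl⟩ := ClassGroup.mk0_surjective x
  have hN : Ideal.relNorm (𝓞 (maximalRealSubfield K)) (I : Ideal (𝓞 K)) ∈ (Ideal (𝓞 (maximalRealSubfield K)))⁰ :=
    mem_nonZeroDivisors_iff_ne_zero.mpr fun e => mem_nonZeroDivisors_iff_ne_zero.mp I.2 (Ideal.relNorm_eq_bot_iff.mp e)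
  refine ⟨ClassGroup.mk0 ⟨_, hN⟩, ?_⟩
  rw [ClassGroup.extendedHom_mk0, conjClass_mk0, ← map_mul]
  exact congrArg ClassGroup.mk0 (Subtype.ext (map_relNorm_eq K I))

end CM

variable {K L : Type} [Field K] [NumberField K] [Field L] [NumberField L] [Algebra K L]

/-- A class which becomes principal is killed by the degree. -/
theorem pow_finrank_eq_one {x : ClassGroup (𝓞 K)} (hx : ClassGroup.extendedHom (𝓞 K) (𝓞 L) x = 1) :
    x ^ Module.finrank K L = 1 := by
  obtain ⟨I, rfl⟩ := ClassGroup.mk0_surjective x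
  rw [ClassGroup.extendedHom_mk0] at hx
  obtain ⟨⟨α, hα⟩⟩ := (ClassGroup.mk0_eq_one_iff (ClassGroup.extendedIdeal (𝓞 K) (𝓞 L) I).2).mp hx
  rw [← map_pow]
  refine FA.CycloTower.mk0_eq_one_of_eq_span _ (Algebra.intNorm (𝓞 K) (𝓞 L) α) ?_
  have hN := congrArg (Ideal.relNorm (𝓞 K)) hα
  change Ideal.relNorm (𝓞 K) ((I : Ideal (𝓞 K)).map (algebraMap (𝓞 K) (𝓞 L))) = _ at hN
  rw [Ideal.relNorm_algebraMap, Ideal.submodule_span_eq, Ideal.relNorm_singleton,
    ← IsFractionRing.finrank_eq (𝓞 K) K (𝓞 L) L] at hN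
  rw [SubmonoidClass.coe_pow]
  exact hN

variable [IsCMField K] [IsCMField L]

/-- Conjugation restricts to conjugation. -/
theorem complexConj_algebraMap (x : K) : complexConj L (algebraMap K L x) = algebraMap K L (complexConj K x) := by
  let φ : L →+* ℂ := Classical.choice (inferInstance : Nonempty _)
  refine φ.injective ?_
  rw [complexEmbedding_complexConj]
  exact (complexEmbedding_complexConj K (φ.comp (algebraMap K L)) x).symm

omit [NumberField K] [IsCMField K] in
/-- Conjugation commutes with every automorphism. -/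
theorem complexConj_comm (g : L ≃ₐ[K] L) (x : L) : complexConj L (g x) = g (complexConj L x) := by
  let φ : L →+* ℂ := Classical.choice (inferInstance : Nonempty _)
  refine φ.injective ?_
  rw [complexEmbedding_complexConj]
  exact (complexEmbedding_complexConj L (φ.comp (g : L →+* L)) x).symm

/-- **No minus class becomes principal**, up to order two. -/
theorem sq_eq_one_of_capitulation [IsGalois K L] {σ : L ≃ₐ[K] L} (hσ : ∀ g, g ∈ Subgroup.zpowers σ)
    (hμ : ∀ ξ ∈ Units.torsion L, FA.CycloTower.normU K ξ = 1 →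
      ∃ η : (𝓞 L)ˣ, ξ = η / FA.CycloTower.actU σ η)
    {x : ClassGroup (𝓞 K)} (hminus : conjClass K x = x⁻¹) (hx : ClassGroup.extendedHom (𝓞 K) (𝓞 L) x = 1) :
    x ^ 2 = 1 := by
  obtain ⟨I, rfl⟩ := ClassGroup.mk0_surjective x
  rw [ClassGroup.extendedHom_mk0] at hx
  obtain ⟨⟨α, hα⟩⟩ := (ClassGroup.mk0_eq_one_iff (ClassGroup.extendedIdeal (𝓞 K) (𝓞 L) I).2).mp hx
  change (I : Ideal (𝓞 K)).map (algebraMap (𝓞 K) (𝓞 L)) = Ideal.span {α} at hα
  set cL := RingOfIntegers.mapRingEquiv (complexConj L).toRingEquiv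
  have hcomm : ∀ t : 𝓞 L, σ • cL t = cL (σ • t) := fun t => RingOfIntegers.ext (complexConj_comm σ (t : L)).symm
  set J := conjIdeal K I
  have hJ : (J : Ideal (𝓞 K)).map (algebraMap (𝓞 K) (𝓞 L)) = Ideal.span {cL α} := by
    have h := congrArg (Ideal.map (cL : 𝓞 L →+* 𝓞 L)) hα
    rw [Ideal.map_map, Ideal.map_span, Set.image_singleton] at h
    show ((I : Ideal (𝓞 K)).map (RingOfIntegers.mapRingEquiv (complexConj K).toRingEquiv : 𝓞 K →+* 𝓞 K)).map _ = _
    rw [Ideal.map_map]
    refine Eq.trans (congrArg (fun f : 𝓞 K →+* 𝓞 L => (I : Ideal (𝓞 K)).map f) ?_) h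
    exact RingHom.ext fun a => RingOfIntegers.ext (complexConj_algebraMap (L := L) (a : K)).symm
  have hα0 : α ≠ 0 := fun e => by
    rw [e, Ideal.span_singleton_eq_bot.mpr rfl,
      Ideal.map_eq_bot_iff_of_injective (FaithfulSMul.algebraMap_injective _ _)] at hα
    exact mem_nonZeroDivisors_iff_ne_zero.mp I.2 hα
  have hfix : σ • Ideal.span {α} = Ideal.span {α} := by
    rw [← hα, FA.CycloTower.smul_map_algebraMap]
  rw [FA.CycloTower.smul_span, Ideal.span_singleton_eq_span_singleton] at hfix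
  obtain ⟨ε, hε⟩ := hfix.symm
  set δ : (𝓞 L)ˣ := unitsComplexConj L ε with hδ
  have hδv : (δ : 𝓞 L) = cL (ε : 𝓞 L) := rfl
  have hσc : σ • cL α = cL α * δ := by rw [hcomm, ← hε, map_mul, hδv]
  have hξ : ε * δ⁻¹ ∈ Units.torsion L := (unitsMulComplexConjInv L ε).2
  have hαL : ((α : 𝓞 L) : L) ≠ 0 := RingOfIntegers.coe_ne_zero_iff.mpr hα0
  have hcα : ((cL α : 𝓞 L) : L) ≠ 0 :=
    RingOfIntegers.coe_ne_zero_iff.mpr ((map_ne_zero_iff cL cL.injective).mpr hα0)
  set q : L := (α : L) / (cL α : L) with hq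
  have hq0 : q ≠ 0 := div_ne_zero hαL hcα
  have hσq : σ q = q * (((ε * δ⁻¹ : (𝓞 L)ˣ) : 𝓞 L) : L) := by
    have e1 : σ (α : L) = (α : L) * ((ε : 𝓞 L) : L) :=
      (congrArg (fun t : 𝓞 L => (t : L)) hε.symm).trans (map_mul _ _ _)
    have e2 : σ (cL α : L) = (cL α : L) * ((δ : 𝓞 L) : L) :=
      (congrArg (fun t : 𝓞 L => (t : L)) hσc).trans (map_mul _ _ _)
    have e3 : (((ε * δ⁻¹ : (𝓞 L)ˣ) : 𝓞 L) : L) = ((ε : 𝓞 L) : L) / ((δ : 𝓞 L) : L) := by
      refine eq_div_of_mul_eq (RingOfIntegers.coe_ne_zero_iff.mpr δ.ne_zero) ?_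
      refine (map_mul (algebraMap (𝓞 L) L) _ _).symm.trans ?_
      rw [← Units.val_mul, inv_mul_cancel_right]
    rw [hq, map_div₀, e1, e2, e3]
    field_simp
  have hN1 : FA.CycloTower.normU K (ε * δ⁻¹) = 1 := by
    refine Units.ext (RingOfIntegers.ext ?_)
    rw [FA.CycloTower.normU_coe, Units.val_one]
    show _ = (1 : K)
    refine mul_left_cancel₀ (Algebra.norm_ne_zero_iff.mpr hq0 : Algebra.norm K q ≠ 0) ?_
    rw [← map_mul, ← hσq, Algebra.norm_eq_of_algEquiv, mul_one]
  obtain ⟨η, hη⟩ := hμ _ hξ hN1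
  set r : L := q * ((η : 𝓞 L) : L) with hr
  have hση : σ ((η : 𝓞 L) : L) * (((ε * δ⁻¹ : (𝓞 L)ˣ) : 𝓞 L) : L) = ((η : 𝓞 L) : L) := by
    have h : ε * δ⁻¹ * FA.CycloTower.actU σ η = η := by rw [hη, div_mul_cancel]
    have h' := congrArg (fun t : (𝓞 L)ˣ => ((t : 𝓞 L) : L)) h
    simp only [Units.val_mul, map_mul] at h'
    rw [mul_comm]
    exact h'
  have hrfix : ∀ g : L ≃ₐ[K] L, g r = r := by
    have h1 : σ r = r := by rw [hr, map_mul, hσq, mul_assoc, mul_comm (_ : L) (σ _), hση]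
    exact fun g => (Subgroup.zpowers_le.mpr (show σ ∈ MulAction.stabilizer (L ≃ₐ[K] L) r from h1)) (hσ g)
  obtain ⟨r₀, hr₀⟩ := (IsGalois.mem_range_algebraMap_iff_fixed (F := K) r).mpr hrfix
  obtain ⟨a, b, hb, hab⟩ := IsFractionRing.div_surjective (𝓞 K) r₀
  have hb0 : b ≠ 0 := nonZeroDivisors.ne_zero hb
  have hrel : algebraMap (𝓞 K) (𝓞 L) a * cL α = algebraMap (𝓞 K) (𝓞 L) b * α * (η : 𝓞 L) := by
    refine RingOfIntegers.coe_injective ?_
    rw [map_mul, map_mul, map_mul]
    show algebraMap K L (a : K) * (cL α : L) = algebraMap K L (b : K) * (α : L) * ((η : 𝓞 L) : L)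
    have hbK : (b : K) ≠ 0 := RingOfIntegers.coe_ne_zero_iff.mpr hb0
    have hb' : algebraMap K L (b : K) ≠ 0 := (map_ne_zero _).mpr hbK
    rw [← hab, map_div₀, div_eq_iff hb'] at hr₀
    rw [hr₀, hr, hq]
    field_simp
  have ha0 : a ≠ 0 := fun e => by
    rw [e, map_zero, zero_mul, eq_comm, mul_eq_zero, mul_eq_zero,
      map_eq_zero_iff _ (FaithfulSMul.algebraMap_injective (𝓞 K) (𝓞 L))] at hrel
    exact hrel.elim (fun h => h.elim hb0 hα0) η.ne_zero
  have hideal : Ideal.span {a} * (J : Ideal (𝓞 K)) = Ideal.span {b} * (I : Ideal (𝓞 K)) := by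
    refine Ideal.map_injective_of_faithfullyFlat (B := 𝓞 L) ?_
    rw [Ideal.map_mul, Ideal.map_mul, hJ, hα, Ideal.map_span, Ideal.map_span, Set.image_singleton,
      Set.image_singleton, Ideal.span_singleton_mul_span_singleton, Ideal.span_singleton_mul_span_singleton, hrel,
      Ideal.span_singleton_mul_right_unit η.isUnit]
  have hJI : ClassGroup.mk0 J = ClassGroup.mk0 I := ClassGroup.mk0_eq_mk0_iff.mpr ⟨a, b, ha0, hb0, hideal⟩
  rw [conjClass_mk0, hJI] at hminus
  rw [pow_two]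
  nth_rewrite 2 [hminus]
  exact mul_inv_cancel _

end FA.ClassField94
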