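import Fermat.Agent.CycloTower.Step
import Fermat.Agent.GalCoh.Herbrand

/-!
# Hilbert's Theorem 94

In a Galois extension `L/K` of prime degree `l` unramified at every place some unit of relative norm one is no
quotient `η/σ η` (Dirichlet's ranks and the Herbrand quotient), so Hilbert 90 gives a non-principal ideal of `K`
which becomes principal in `L`; its class has order `l`.
-/

set_option autoImplicit false

noncomputable section

open NumberField UniqueFactorizationMonoid
open scoped Pointwise nonZeroDivisors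

namespace FA.ClassField94

variable {K L : Type} [Field K] [NumberField K] [Field L] [NumberField L] [Algebra K L] [IsGalois K L]

/-- Unramified at every finite prime, by ramification indices. -/
def UnramifiedPrimes (K L : Type*) [Field K] [NumberField K] [Field L] [NumberField L] [Algebra K L] : Prop :=
  ∀ P : Ideal (𝓞 L), P.IsPrime → P ≠ ⊥ → P.ramificationIdx (𝓞 K) = 1

/-- Fixed ideals are extended ideals. -/
theorem exists_eq_map (hunr : UnramifiedPrimes K L) (B : Ideal (𝓞 L)) (hB : B ≠ ⊥)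
    (hfix : ∀ g : L ≃ₐ[K] L, g • B = B) : ∃ J : Ideal (𝓞 K), B = J.map (algebraMap (𝓞 K) (𝓞 L)) := by
  revert hB hfix
  refine (wellFounded_dvdNotUnit (α := Ideal (𝓞 L))).induction (C := fun B => B ≠ ⊥ →
    (∀ g : L ≃ₐ[K] L, g • B = B) → ∃ J : Ideal (𝓞 K), B = J.map (algebraMap (𝓞 K) (𝓞 L))) B
    fun B ih hB hfix => ?_
  by_cases htop : B = ⊤
  · exact ⟨⊤, by rw [htop, Ideal.map_top]⟩
  obtain ⟨P, hP, hBP⟩ := Ideal.exists_le_maximal B htop
  have := hP.isPrime
  have hP0 : P ≠ ⊥ := fun e => hB (le_bot_iff.mp (e ▸ hBP))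
  set M := (P.under (𝓞 K)).map (algebraMap (𝓞 K) (𝓞 L))
  obtain ⟨B', hB'⟩ : M ∣ B := FA.CycloTower.map_under_dvd hP0 (hunr P hP.isPrime hP0) hfix hBP
  have hB'0 : B' ≠ ⊥ := fun e => hB (by rw [hB', e, Ideal.mul_bot])
  have hM0 : M ≠ ⊥ := fun e => hB (by rw [hB', e, Ideal.bot_mul])
  have hMtop : M ≠ ⊤ := fun e => hP.ne_top (top_unique (e ▸ Ideal.map_comap_le))
  obtain ⟨J, hJ⟩ := ih B' ⟨hB'0, M, fun hu => hMtop (Ideal.isUnit_iff.mp hu), hB'.trans (mul_comm _ _)⟩ hB'0
    fun g => by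
      have h := hfix g
      rw [hB', smul_mul', FA.CycloTower.smul_map_algebraMap] at h
      exact mul_left_cancel₀ hM0 h
  exact ⟨P.under (𝓞 K) * J, by rw [hB', hJ, Ideal.map_mul]⟩

variable {l : ℕ} [Fact l.Prime]

/-- The units of `K` inside those of `L`. -/
def inclUnits (K L : Type) [Field K] [Field L] [Algebra K L] : (𝓞 K)ˣ →* (𝓞 L)ˣ :=
  Units.map (algebraMap (𝓞 K) (𝓞 L)).toMonoidHom

omit [NumberField K] [NumberField L] [IsGalois K L] in
theorem inclUnits_injective : Function.Injective (inclUnits K L) :=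
  Units.map_injective (FaithfulSMul.algebraMap_injective (𝓞 K) (𝓞 L))

/-- A unit fixed by the group comes from `K`. -/
theorem exists_inclUnits_eq {u : (𝓞 L)ˣ} (hu : ∀ g : L ≃ₐ[K] L, g • (u : 𝓞 L) = u) :
    ∃ v : (𝓞 K)ˣ, inclUnits K L v = u := by
  have key : ∀ x : 𝓞 L, (∀ g : L ≃ₐ[K] L, g • x = x) → ∃ a : 𝓞 K, algebraMap (𝓞 K) (𝓞 L) a = x := fun x hx => by
    obtain ⟨y, hy⟩ := (IsGalois.mem_range_algebraMap_iff_fixed (F := K) (x : L)).mpr
      fun g => congrArg (fun t : 𝓞 L => (t : L)) (hx g)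
    have hint : IsIntegral ℤ y :=
      (isIntegral_algebraMap_iff (algebraMap K L).injective).mp (by rw [hy]; exact x.isIntegral_coe)
    exact ⟨⟨y, hint⟩, RingOfIntegers.ext hy⟩
  obtain ⟨a, ha⟩ := key u hu
  obtain ⟨b, hb⟩ := key (u⁻¹ : (𝓞 L)ˣ) fun g => by
    have h1 : (g • (u : 𝓞 L)) * (g • ((u⁻¹ : (𝓞 L)ˣ) : 𝓞 L)) = 1 := by
      rw [← smul_mul', ← Units.val_mul, mul_inv_cancel, Units.val_one, smul_one]
    rw [hu g] at h1
    exact (Units.inv_eq_of_mul_eq_one_right h1).symm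
  have hab : a * b = 1 := FaithfulSMul.algebraMap_injective (𝓞 K) (𝓞 L) (by
    rw [map_mul, ha, hb, map_one, ← Units.val_mul, mul_inv_cancel, Units.val_one])
  exact ⟨⟨a, b, hab, (mul_comm b a).trans hab⟩, Units.ext ha⟩

theorem inclUnits_normU (u : (𝓞 L)ˣ) :
    inclUnits K L (FA.CycloTower.normU K u) = ∏ g : L ≃ₐ[K] L, FA.CycloTower.actU g u :=
  Units.ext (RingOfIntegers.coe_injective (by
    rw [Units.coe_prod, map_prod]
    exact Algebra.norm_eq_prod_automorphisms K ((u : 𝓞 L) : L)))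

/-- A generator in prime degree. -/
theorem exists_generator (hdeg : Module.finrank K L = l) :
    ∃ σ : L ≃ₐ[K] L, (∀ g, g ∈ Subgroup.zpowers σ) ∧ orderOf σ = l := by
  have hcard : Nat.card (L ≃ₐ[K] L) = l := by rw [IsGalois.card_aut_eq_finrank, hdeg]
  have : IsCyclic (L ≃ₐ[K] L) := isCyclic_of_prime_card hcard
  obtain ⟨σ, hσ⟩ := IsCyclic.exists_generator (α := L ≃ₐ[K] L)
  exact ⟨σ, hσ, (orderOf_eq_card_of_forall_mem_zpowers hσ).trans hcard⟩

/-- **The first cohomology of the units does not vanish.** -/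
theorem exists_unit_not_coboundary [IsUnramifiedAtInfinitePlaces K L] (hdeg : Module.finrank K L = l)
    {σ : L ≃ₐ[K] L} (hσ : ∀ g, g ∈ Subgroup.zpowers σ) (hord : orderOf σ = l) :
    ∃ u : (𝓞 L)ˣ, FA.CycloTower.normU K u = 1 ∧ ∀ η : (𝓞 L)ˣ, u ≠ η / FA.CycloTower.actU σ η := by
  by_contra! hall
  have hl : l.Prime := Fact.out
  let s : Additive (𝓞 L)ˣ →ₗ[ℤ] Additive (𝓞 L)ˣ := (FA.CycloTower.actU σ).toAdditive.toIntLinearMap
  let j : Additive (𝓞 K)ˣ →ₗ[ℤ] Additive (𝓞 L)ˣ := (inclUnits K L).toAdditive.toIntLinearMap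
  have hspow : ∀ (n : ℕ) (x : Additive (𝓞 L)ˣ), (s ^ n) x = Additive.ofMul (FA.CycloTower.actU (σ ^ n) x.toMul) :=
    fun n => by
    induction n with
    | zero =>
      intro x
      show x = _
      exact Additive.toMul.injective (Units.ext (one_smul _ _).symm)
    | succ n ih =>
      intro x
      rw [pow_succ', Module.End.mul_apply, ih, pow_succ']
      exact Additive.toMul.injective (Units.ext (mul_smul _ _ _).symm)
  have hs : s ^ l = 1 := LinearMap.ext fun x => by
    rw [hspow, ← hord, pow_orderOf_eq_one]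
    exact Additive.toMul.injective (Units.ext (one_smul _ _))
  have hN : ∀ x, FA.GalCoh.nEnd s l x = j (Additive.ofMul (FA.CycloTower.normU K x.toMul)) := fun x => by
    rw [FA.GalCoh.nEnd, LinearMap.sum_apply, Finset.sum_congr rfl fun i _ => hspow i x, ← ofMul_prod]
    show _ = Additive.ofMul (inclUnits K L _)
    rw [toMul_ofMul, inclUnits_normU]
    congr 1
    refine Finset.prod_bij (fun i _ => σ ^ i) (fun i _ => Finset.mem_univ _) (fun a ha b hb h => ?_)
      (fun g _ => ?_) (fun i _ => rfl)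
    · rw [Finset.mem_range, ← hord] at ha hb
      exact pow_injOn_Iio_orderOf ha hb h
    · obtain ⟨i, rfl⟩ := mem_powers_iff_mem_zpowers.mpr (hσ g)
      exact ⟨i % l, Finset.mem_range.mpr (Nat.mod_lt _ hl.pos), by rw [← hord]; exact pow_mod_orderOf σ i⟩
  have h1 : LinearMap.ker (FA.GalCoh.nEnd s l) ≤ LinearMap.range (s - 1) := fun x hx => by
    rw [LinearMap.mem_ker, hN] at hx
    have hnorm : FA.CycloTower.normU K x.toMul = 1 :=
      inclUnits_injective (L := L) ((congrArg Additive.toMul hx).trans (map_one (inclUnits K L)).symm)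
    obtain ⟨η, hη⟩ := hall _ hnorm
    refine ⟨-Additive.ofMul η, Additive.toMul.injective ?_⟩
    show (FA.CycloTower.actU σ η⁻¹) / η⁻¹ = x.toMul
    rw [hη, map_inv, inv_div_inv]
  obtain ⟨k, hk, hidx⟩ := FA.GalCoh.index_range_nEnd (p := l) s hs h1
  have hker : Module.finrank ℤ (LinearMap.ker (s - 1)) = Units.rank K := by
    have hr : LinearMap.range j = LinearMap.ker (s - 1) := by
      ext x
      constructor
      · rintro ⟨v, rfl⟩
        rw [LinearMap.mem_ker, LinearMap.sub_apply, Module.End.one_apply, sub_eq_zero]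
        exact Additive.toMul.injective (Units.ext (RingOfIntegers.ext (σ.commutes _)))
      · intro hx
        rw [LinearMap.mem_ker, LinearMap.sub_apply, Module.End.one_apply, sub_eq_zero] at hx
        have hu : σ • ((x.toMul : (𝓞 L)ˣ) : 𝓞 L) = x.toMul :=
          congrArg (fun t : Additive (𝓞 L)ˣ => ((t.toMul : (𝓞 L)ˣ) : 𝓞 L)) hx
        obtain ⟨v, hv⟩ := exists_inclUnits_eq (K := K) (u := x.toMul) fun g =>
          (Subgroup.zpowers_le.mpr (show σ ∈ MulAction.stabilizer (L ≃ₐ[K] L) ((x.toMul : (𝓞 L)ˣ) : 𝓞 L) from hu))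
            (hσ g)
        exact ⟨Additive.ofMul v, congrArg Additive.ofMul hv⟩
    have hj : Function.Injective j := fun a b h =>
      Additive.toMul.injective (inclUnits_injective (L := L) (congrArg Additive.toMul h))
    rw [← hr, LinearMap.finrank_range_of_inj hj, Units.finrank_eq]
  rw [Units.finrank_eq, hker] at hk
  rw [hker] at hidx
  have hL : Units.rank L + 1 = l * (Units.rank K + 1) := by
    have h := IsUnramifiedAtInfinitePlaces.card_infinitePlace K L
    have h0 : 0 < Fintype.card (InfinitePlace K) := Fintype.card_pos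
    rw [hdeg] at h
    rw [Units.rank, Units.rank, h, mul_comm]
    have := Nat.mul_pos hl.pos h0
    rw [Nat.sub_add_cancel h0, Nat.sub_add_cancel this]
  have hkr : k = Units.rank K + 1 := by
    obtain ⟨d, rfl⟩ : ∃ d, l = d + 2 := ⟨l - 2, by have := hl.two_le; omega⟩
    have : k * (d + 1) = (Units.rank K + 1) * (d + 1) := by
      rw [show d + 2 - 1 = d + 1 by omega] at hk
      nlinarith
    exact Nat.eq_of_mul_eq_mul_right d.succ_pos this
  rw [hkr, pow_succ, ← mul_assoc] at hidx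
  have h2 := Nat.eq_of_mul_eq_mul_left (pow_pos hl.pos (Units.rank K))
    ((mul_left_comm _ _ _).trans ((mul_assoc _ _ _).symm.trans (hidx.trans (mul_one _).symm)))
  exact hl.ne_one (Nat.eq_one_of_mul_eq_one_left h2)

/-- **Hilbert's Theorem 94**: an ideal class of order `l` becomes principal. -/
theorem exists_capitulation [IsUnramifiedAtInfinitePlaces K L] (hdeg : Module.finrank K L = l)
    (hunr : UnramifiedPrimes K L) :
    ∃ J : (Ideal (𝓞 K))⁰, orderOf (ClassGroup.mk0 J) = l ∧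
      ((J : Ideal (𝓞 K)).map (algebraMap (𝓞 K) (𝓞 L))).IsPrincipal := by
  obtain ⟨σ, hσ, hord⟩ := exists_generator (K := K) (L := L) hdeg
  obtain ⟨u, hu1, hu⟩ := exists_unit_not_coboundary hdeg hσ hord
  have hr : Algebra.norm K ((u : 𝓞 L) : L) = 1 := by
    have h := congrArg (fun t : (𝓞 K)ˣ => ((t : 𝓞 K) : K)) hu1
    simpa [FA.CycloTower.normU_coe] using h
  obtain ⟨β, hβ, hβr⟩ := FA.CycloTower.exists_integral_hilbert90 hσ hr
  have hkey : (u : 𝓞 L) * (σ • β) = β := RingOfIntegers.coe_injective (by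
    simp only [map_mul, FA.CycloTower.coe_smul_int]; exact hβr)
  have hB : Ideal.span {β} ≠ ⊥ := fun e => hβ (Ideal.span_singleton_eq_bot.mp e)
  have hBσ : σ • Ideal.span {β} = Ideal.span {β} := by
    rw [FA.CycloTower.smul_span]
    conv_rhs => rw [← hkey, Ideal.span_singleton_mul_left_unit u.isUnit]
  obtain ⟨J, hJ⟩ := exists_eq_map hunr _ hB (FA.CycloTower.smul_fixed_of_generator hσ hBσ)
  have hJ0 : J ≠ ⊥ := fun e => hB (by rw [hJ, e, Ideal.map_bot])
  refine ⟨⟨J, mem_nonZeroDivisors_iff_ne_zero.mpr hJ0⟩, orderOf_eq_prime ?_ ?_, hJ ▸ ⟨⟨β, rfl⟩⟩⟩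
  · rw [← map_pow]
    refine FA.CycloTower.mk0_eq_one_of_eq_span _ (Algebra.intNorm (𝓞 K) (𝓞 L) β) ?_
    have hN := congrArg (Ideal.relNorm (𝓞 K)) hJ
    rw [Ideal.relNorm_algebraMap, Ideal.relNorm_singleton,
      show Module.finrank (𝓞 K) (𝓞 L) = l by
        rw [← hdeg, IsFractionRing.finrank_eq (𝓞 K) K (𝓞 L) L]] at hN
    rw [SubmonoidClass.coe_pow]
    exact hN.symm
  · intro hone
    obtain ⟨⟨γ, hγ⟩⟩ := (ClassGroup.mk0_eq_one_iff _).mp hone
    have hγ' : J = Ideal.span {γ} := hγ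
    rw [hγ', Ideal.map_span, Set.image_singleton, Ideal.span_singleton_eq_span_singleton] at hJ
    obtain ⟨η, hη⟩ := hJ.symm
    have hγσ : σ • algebraMap (𝓞 K) (𝓞 L) γ = algebraMap (𝓞 K) (𝓞 L) γ := RingOfIntegers.ext (σ.commutes (γ : K))
    refine hu η ?_
    rw [← hη, smul_mul', hγσ, mul_left_comm] at hkey
    have h2 := mul_left_cancel₀ (fun e => hβ (by rw [← hη, e, zero_mul])) hkey
    exact eq_div_iff_mul_eq'.mpr (Units.ext h2)

/-- **Hilbert's Theorem 94**: `l` divides the class number. -/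
theorem dvd_classNumber [IsUnramifiedAtInfinitePlaces K L] (hdeg : Module.finrank K L = l)
    (hunr : UnramifiedPrimes K L) : l ∣ classNumber K := by
  obtain ⟨J, hJ, -⟩ := exists_capitulation hdeg hunr
  exact hJ ▸ orderOf_dvd_card

end FA.ClassField94
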