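import Fermat.Agent.ClassField94.AmbiguousPrime
import Fermat.Agent.ClassField94.Main
import Fermat.Agent.ExtVanish.Herbrand
import Mathlib.NumberTheory.NumberField.Cyclotomic.Galois

/-!
# Which classes of `ℚ(ζ_p)` become principal in `ℚ(ζ_m)`

For every multiple `m` of `p ≥ 5` only classes from the real subfield do. The ratio of a generator to its
conjugate is multiplied by roots of unity under `Gal(L/K)`; commuting lifts of a generator of `Gal(K/ℚ)` turn
this into an eigenclass of weight one (none, by Herbrand) and a fixed class (none, only `p` ramifies).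
-/

set_option autoImplicit false

noncomputable section

open NumberField IsCMField
open scoped Pointwise nonZeroDivisors

namespace FA.ClassField94

variable {K L : Type} [Field K] [NumberField K] [Field L] [NumberField L] [Algebra K L]
set_option linter.unusedSectionVars false

/-- An automorphism on classes. -/
def classAct (φ : K ≃+* K) : ClassGroup (𝓞 K) ≃* ClassGroup (𝓞 K) :=
  ClassGroup.mulEquiv (RingOfIntegers.mapRingEquiv φ)

/-- `b` generates the extension of a fractional ideal of class `x`. -/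
def GensFrac (x : ClassGroup (𝓞 K)) (b : L) : Prop :=
  ∃ (I J : (Ideal (𝓞 K))⁰) (a c : 𝓞 L), a ≠ 0 ∧ c ≠ 0 ∧ b * (c : L) = (a : L) ∧
    x = ClassGroup.mk0 I / ClassGroup.mk0 J ∧
    (J : Ideal (𝓞 K)).map (algebraMap (𝓞 K) (𝓞 L)) * Ideal.span {a} =
      (I : Ideal (𝓞 K)).map (algebraMap (𝓞 K) (𝓞 L)) * Ideal.span {c}

theorem GensFrac.ne_zero {x : ClassGroup (𝓞 K)} {b : L} (h : GensFrac x b) : b ≠ 0 := by
  obtain ⟨I, J, a, c, ha, -, hb, -, -⟩ := h
  intro e
  rw [e, zero_mul, eq_comm, RingOfIntegers.coe_eq_zero_iff] at hb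
  exact ha hb

theorem GensFrac.mul {x y : ClassGroup (𝓞 K)} {b b' : L} (h : GensFrac x b) (h' : GensFrac y b') :
    GensFrac (x * y) (b * b') := by
  obtain ⟨I, J, a, c, ha, hc, hb, hx, hI⟩ := h
  obtain ⟨I', J', a', c', ha', hc', hb', hy, hI'⟩ := h'
  refine ⟨I * I', J * J', a * a', c * c', mul_ne_zero ha ha', mul_ne_zero hc hc', ?_, ?_, ?_⟩
  · simp only [map_mul, ← hb, ← hb']
    ring
  · rw [hx, hy, map_mul, map_mul, div_mul_div_comm]
  · simp only [Submonoid.coe_mul, Ideal.map_mul, ← Ideal.span_singleton_mul_span_singleton]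
    rw [mul_mul_mul_comm, hI, hI', mul_mul_mul_comm]

theorem GensFrac.inv {x : ClassGroup (𝓞 K)} {b : L} (h : GensFrac x b) : GensFrac x⁻¹ b⁻¹ := by
  have hb0 := h.ne_zero
  obtain ⟨I, J, a, c, ha, hc, hb, hx, hI⟩ := h
  refine ⟨J, I, c, a, hc, ha, ?_, by rw [hx, inv_div], hI.symm⟩
  rw [← hb, inv_mul_cancel_left₀ hb0]

theorem GensFrac.div {x y : ClassGroup (𝓞 K)} {b b' : L} (h : GensFrac x b) (h' : GensFrac y b') :
    GensFrac (x / y) (b / b') := by
  rw [div_eq_mul_inv, div_eq_mul_inv]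
  exact h.mul h'.inv

theorem GensFrac.pow {x : ClassGroup (𝓞 K)} {b : L} (h : GensFrac x b) : ∀ n : ℕ, GensFrac (x ^ n) (b ^ n)
  | 0 => ⟨1, 1, 1, 1, one_ne_zero, one_ne_zero, by simp, by simp, rfl⟩
  | n + 1 => by
    rw [pow_succ, pow_succ]
    exact (GensFrac.pow h n).mul h

/-- Transport along compatible automorphisms. -/
theorem GensFrac.map {x : ClassGroup (𝓞 K)} {b : L} (h : GensFrac x b) (φ : K ≃+* K) (ψ : L ≃+* L)
    (hcomp : ∀ t : K, ψ (algebraMap K L t) = algebraMap K L (φ t)) : GensFrac (classAct φ x) (ψ b) := by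
  obtain ⟨I, J, a, c, ha, hc, hb, hx, hI⟩ := h
  set e := RingOfIntegers.mapRingEquiv φ
  set f := RingOfIntegers.mapRingEquiv ψ
  have hJI : ∀ A : (Ideal (𝓞 K))⁰, ((Ideal.mapNonZero e A : (Ideal (𝓞 K))⁰) : Ideal (𝓞 K)).map
      (algebraMap (𝓞 K) (𝓞 L)) = ((A : Ideal (𝓞 K)).map (algebraMap (𝓞 K) (𝓞 L))).map (f : 𝓞 L →+* 𝓞 L) :=
    fun A => by
      show ((A : Ideal (𝓞 K)).map (e : 𝓞 K →+* 𝓞 K)).map _ = _
      rw [Ideal.map_map, Ideal.map_map]
      exact congrArg (fun g : 𝓞 K →+* 𝓞 L => (A : Ideal (𝓞 K)).map g)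
        (RingHom.ext fun t => RingOfIntegers.ext (hcomp (t : K)).symm)
  refine ⟨Ideal.mapNonZero e I, Ideal.mapNonZero e J, f a, f c, (map_ne_zero_iff f f.injective).mpr ha,
    (map_ne_zero_iff f f.injective).mpr hc, ?_, ?_, ?_⟩
  · show ψ b * ψ (c : L) = ψ (a : L)
    rw [← map_mul, hb]
  · rw [hx, map_div, classAct, ClassGroup.mulEquiv_mk0, ClassGroup.mulEquiv_mk0]
  · rw [hJI, hJI]
    have h2 := congrArg (Ideal.map (f : 𝓞 L →+* 𝓞 L)) hI
    rw [Ideal.map_mul, Ideal.map_mul, Ideal.map_span, Ideal.map_span, Set.image_singleton,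
      Set.image_singleton] at h2
    exact h2

/-- A generator in `K` makes the class trivial. -/
theorem GensFrac.eq_one_of_range {x : ClassGroup (𝓞 K)} {b : L} (h : GensFrac x b) {r : K}
    (hr : algebraMap K L r = b) : x = 1 := by
  obtain ⟨I, J, a, c, ha, hc, hb, hx, hI⟩ := h
  obtain ⟨u, v, hv, huv⟩ := IsFractionRing.div_surjective (𝓞 K) r
  have hv0 : v ≠ 0 := nonZeroDivisors.ne_zero hv
  have hvL : algebraMap K L (v : K) ≠ 0 := (map_ne_zero _).mpr (RingOfIntegers.coe_ne_zero_iff.mpr hv0)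
  have hrel : algebraMap (𝓞 K) (𝓞 L) v * a = algebraMap (𝓞 K) (𝓞 L) u * c := by
    refine RingOfIntegers.coe_injective ?_
    rw [map_mul, map_mul]
    show algebraMap K L (v : K) * (a : L) = algebraMap K L (u : K) * (c : L)
    rw [← hb, ← hr, ← huv, map_div₀, ← mul_assoc, mul_div_cancel₀ _ hvL]
  have hu0 : u ≠ 0 := fun e => by
    rw [e, map_zero, zero_mul, mul_eq_zero, map_eq_zero_iff _ (FaithfulSMul.algebraMap_injective (𝓞 K) (𝓞 L))]
      at hrel
    exact hrel.elim hv0 ha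
  rw [hx, div_eq_one]
  refine ClassGroup.mk0_eq_mk0_iff.mpr ⟨v, u, hv0, hu0, Ideal.map_injective_of_faithfullyFlat (B := 𝓞 L) ?_⟩
  refine mul_right_cancel₀ (b := Ideal.span {c}) (fun e => hc (Ideal.span_singleton_eq_bot.mp e)) ?_
  rw [Ideal.map_mul, Ideal.map_mul, Ideal.map_span, Ideal.map_span, Set.image_singleton, Set.image_singleton,
    mul_assoc, ← hI, mul_left_comm, Ideal.span_singleton_mul_span_singleton, hrel,
    ← Ideal.span_singleton_mul_span_singleton]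
  ac_rfl

variable [IsGalois K L]

/-- A fixed power of a generator kills the class. -/
theorem GensFrac.pow_eq_one {x : ClassGroup (𝓞 K)} {b : L} (h : GensFrac x b) (n : ℕ)
    (hn : ∀ g : L ≃ₐ[K] L, (g b / b) ^ n = 1) : x ^ n = 1 := by
  have hb := h.ne_zero
  obtain ⟨r, hr⟩ := (IsGalois.mem_range_algebraMap_iff_fixed (F := K) (b ^ n)).mpr fun g => by
    have h1 := hn g
    rw [div_pow, div_eq_one_iff_eq (pow_ne_zero _ hb), ← map_pow] at h1
    exact h1
  exact (h.pow n).eq_one_of_range hr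

section Torsion

omit [Algebra K L] [IsGalois K L]

/-- Roots of unity have exponent the torsion order. -/
theorem pow_torsionOrder_eq_one {ξ : L} {n : ℕ} (hn : n ≠ 0) (h : ξ ^ n = 1) :
    ξ ^ Units.torsionOrder L = 1 := by
  have hint : IsIntegral ℤ ξ := IsIntegral.of_pow (Nat.pos_of_ne_zero hn) (by rw [h]; exact isIntegral_one)
  let ξ' : 𝓞 L := ⟨ξ, hint⟩
  have h' : ξ' ^ n = 1 := Subtype.ext h
  let u := Units.ofPowEqOne ξ' n h' hn
  have hu : u ∈ Units.torsion L :=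
    (CommGroup.mem_torsion (G := (𝓞 L)ˣ) u).mpr
      (isOfFinOrder_iff_pow_eq_one.mpr ⟨n, Nat.pos_of_ne_zero hn, Units.ext h'⟩)
  have h2 : (⟨u, hu⟩ : Units.torsion L) ^ Units.torsionOrder L = 1 := pow_card_eq_one'
  have h3 := congrArg (fun t : Units.torsion L => (((t : (𝓞 L)ˣ) : 𝓞 L) : L)) h2
  simpa [u, ξ'] using h3

/-- A unit over its conjugate is a root of unity. -/
theorem unit_div_conj_pow [IsCMField L] (ε : (𝓞 L)ˣ) :
    (((ε : 𝓞 L) : L) / complexConj L ((ε : 𝓞 L) : L)) ^ Units.torsionOrder L = 1 := by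
  have h2 : unitsMulComplexConjInv L ε ^ Units.torsionOrder L = 1 := pow_card_eq_one'
  have hc : complexConj L ((ε : 𝓞 L) : L) ≠ 0 := by simp [ε.ne_zero]
  have hval : (((unitsMulComplexConjInv L ε : (𝓞 L)ˣ) : 𝓞 L) : L) =
      ((ε : 𝓞 L) : L) / complexConj L ((ε : 𝓞 L) : L) := by
    refine eq_div_of_mul_eq hc ?_
    show (((ε * (unitsComplexConj L ε)⁻¹ : (𝓞 L)ˣ) : 𝓞 L) : L) * (((unitsComplexConj L ε : (𝓞 L)ˣ) : 𝓞 L) : L) = _
    rw [← map_mul, ← Units.val_mul, inv_mul_cancel_right]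
  rw [← hval]
  have h3 := congrArg (fun t : Units.torsion L => (((t : (𝓞 L)ˣ) : 𝓞 L) : L)) h2
  simpa using h3

/-- A cyclotomic field is cyclotomic of its torsion order. -/
theorem isCyclotomicExtension_torsionOrder (m : ℕ) [NeZero m] [IsCyclotomicExtension {m} ℚ L] :
    IsCyclotomicExtension {Units.torsionOrder L} ℚ L ∧ m ∣ Units.torsionOrder L := by
  have hζ := IsCyclotomicExtension.zeta_spec m ℚ L
  have hdvd := NumberField.Units.dvd_torsionOrder_of_isPrimitiveRoot hζ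
  refine ⟨?_, hdvd⟩
  obtain ⟨μ, hμ⟩ : ∃ μ : Units.torsion L, orderOf μ = Units.torsionOrder L := IsCyclic.exists_ofOrder_eq_natCard
  rw [← IsPrimitiveRoot.iff_orderOf, ← IsPrimitiveRoot.coe_submonoidClass_iff,
    ← IsPrimitiveRoot.coe_units_iff] at hμ
  replace hμ := hμ.map_of_injective (FaithfulSMul.algebraMap_injective (𝓞 L) L)
  have := (‹IsCyclotomicExtension {m} ℚ L›).union_of_isPrimitiveRoot _ _ _ hμ
  rwa [Set.union_comm, ← IsCyclotomicExtension.iff_union_of_dvd] at this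
  exact ⟨Units.torsionOrder L, by simp, Units.torsionOrder_ne_zero L, hdvd⟩

end Torsion

variable {p : ℕ} [Fact p.Prime] [IsCyclotomicExtension {p} ℚ K]

omit [IsGalois K L] in
/-- **The lift of a generator**: trivial on the roots of unity of order prime to `p`. -/
theorem exists_lift {M a m' t : ℕ} [NeZero M] [IsCyclotomicExtension {M} ℚ L] (hM : M = p ^ a * m')
    (hm' : ¬ p ∣ m') (ha : a ≠ 0) (ht : ¬ p ∣ t) :
    ∃ (τ : L ≃ₐ[ℚ] L) (σ : K ≃ₐ[ℚ] K) (k : ℕ),
      ((IsCyclotomicExtension.Rat.galEquivZMod p K σ : (ZMod p)ˣ) : ZMod p) = t ∧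
      (∀ x : K, τ (algebraMap K L x) = algebraMap K L (σ x)) ∧ (∀ ξ : L, ξ ^ M = 1 → τ ξ = ξ ^ k) ∧
      k ≡ t [MOD p ^ a] ∧ k ≡ 1 [MOD m'] ∧ ∀ (g : L ≃ₐ[K] L) (x : L), g (τ x) = τ (g x) := by
  have hp : p.Prime := Fact.out
  have : NeZero p := ⟨hp.ne_zero⟩
  have : IsGalois ℚ K := IsCyclotomicExtension.isGalois {p} ℚ K
  have hco : (p ^ a).Coprime m' := Nat.Coprime.pow_left _ (hp.coprime_iff_not_dvd.mpr hm')
  obtain ⟨k, hk1, hk2⟩ := Nat.chineseRemainder hco t 1
  have hkM : k.Coprime M := by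
    rw [hM]
    refine Nat.Coprime.mul_right ?_ ?_
    · rw [Nat.coprime_iff_gcd_eq_one, hk1.gcd_eq, ← Nat.coprime_iff_gcd_eq_one]
      exact Nat.Coprime.pow_right _ (hp.coprime_iff_not_dvd.mpr ht).symm
    · rw [Nat.coprime_iff_gcd_eq_one, hk2.gcd_eq, Nat.gcd_one_left]
  set τ := (IsCyclotomicExtension.Rat.galEquivZMod M L).symm (ZMod.unitOfCoprime k hkM)
  have hpM : p ∣ M := hM ▸ (dvd_pow_self p ha).mul_right m'
  refine ⟨τ, τ.restrictNormal K, k, ?_, fun x => (AlgEquiv.restrictNormal_commutes τ K x).symm, fun ξ hξ => ?_,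
    hk1, hk2, fun g x => ?_⟩
  · rw [IsCyclotomicExtension.Rat.galEquivZMod_restrictNormal_apply M L K hpM, MulEquiv.apply_symm_apply,
      ZMod.unitsMap_def, Units.coe_map]
    show ZMod.castHom hpM (ZMod p) (k : ZMod M) = _
    rw [map_natCast, ZMod.natCast_eq_natCast_iff]
    exact hk1.of_dvd (dvd_pow_self p ha)
  · rw [IsCyclotomicExtension.Rat.galEquivZMod_apply_of_pow_eq M L τ hξ, MulEquiv.apply_symm_apply,
      ZMod.coe_unitOfCoprime, ZMod.val_natCast]
    exact (pow_eq_pow_mod _ hξ).symm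
  · have h : (g.restrictScalars ℚ) * τ = τ * (g.restrictScalars ℚ) :=
      (IsCyclotomicExtension.Rat.galEquivZMod M L).injective (by rw [map_mul, map_mul, mul_comm])
    exact DFunLike.congr_fun h x

/-- `ξ^(k-1)` as a quotient. -/
theorem pow_div_pow_eq_one {F : Type*} [Field F] {ξ : F} {M k t n : ℕ} (hξ0 : ξ ≠ 0) (hξ : ξ ^ M = 1)
    (h : k * n ≡ t * n [MOD M]) : (ξ ^ k / ξ ^ t) ^ n = 1 := by
  rw [div_pow, ← pow_mul, ← pow_mul, pow_eq_pow_mod _ hξ, h, ← pow_eq_pow_mod _ hξ,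
    div_self (pow_ne_zero _ hξ0)]

variable [IsCMField K] [IsCMField L]

omit [IsGalois K L] in
/-- The data of a capitulation: a generator whose ratio with its conjugate moves by roots of unity. -/
theorem exists_generator_ratio {I : (Ideal (𝓞 K))⁰}
    (hx : ClassGroup.extendedHom (𝓞 K) (𝓞 L) (ClassGroup.mk0 I) = 1) :
    ∃ a : 𝓞 L, a ≠ 0 ∧ (I : Ideal (𝓞 K)).map (algebraMap (𝓞 K) (𝓞 L)) = Ideal.span {a} ∧
      (conjIdeal K I : Ideal (𝓞 K)).map (algebraMap (𝓞 K) (𝓞 L)) =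
        Ideal.span {RingOfIntegers.mapRingEquiv (complexConj L).toRingEquiv a} ∧
      GensFrac (ClassGroup.mk0 I / conjClass K (ClassGroup.mk0 I)) ((a : L) / complexConj L (a : L)) ∧
      ∀ g : L ≃ₐ[K] L, (g ((a : L) / complexConj L (a : L)) / ((a : L) / complexConj L (a : L))) ^
        Units.torsionOrder L = 1 := by
  rw [ClassGroup.extendedHom_mk0] at hx
  obtain ⟨⟨a, ha⟩⟩ := (ClassGroup.mk0_eq_one_iff (ClassGroup.extendedIdeal (𝓞 K) (𝓞 L) I).2).mp hx
  change (I : Ideal (𝓞 K)).map (algebraMap (𝓞 K) (𝓞 L)) = Ideal.span {a} at ha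
  set cL := RingOfIntegers.mapRingEquiv (complexConj L).toRingEquiv
  have ha0 : a ≠ 0 := fun e => by
    rw [e, Ideal.span_singleton_eq_bot.mpr rfl,
      Ideal.map_eq_bot_iff_of_injective (FaithfulSMul.algebraMap_injective _ _)] at ha
    exact mem_nonZeroDivisors_iff_ne_zero.mp I.2 ha
  have hc : (conjIdeal K I : Ideal (𝓞 K)).map (algebraMap (𝓞 K) (𝓞 L)) = Ideal.span {cL a} := by
    have h := congrArg (Ideal.map (cL : 𝓞 L →+* 𝓞 L)) ha
    rw [Ideal.map_map, Ideal.map_span, Set.image_singleton] at h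
    show ((I : Ideal (𝓞 K)).map (RingOfIntegers.mapRingEquiv (complexConj K).toRingEquiv : 𝓞 K →+* 𝓞 K)).map _ = _
    rw [Ideal.map_map]
    refine Eq.trans (congrArg (fun f : 𝓞 K →+* 𝓞 L => (I : Ideal (𝓞 K)).map f) ?_) h
    exact RingHom.ext fun t => RingOfIntegers.ext (complexConj_algebraMap (L := L) (t : K)).symm
  have hG : GensFrac (ClassGroup.mk0 I) (a : L) :=
    ⟨I, 1, a, 1, ha0, one_ne_zero, by simp, by simp, by
      rw [Submonoid.coe_one, Ideal.one_eq_top, Ideal.map_top, Ideal.top_mul, ha, Ideal.span_singleton_one,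
        Ideal.mul_top]⟩
  refine ⟨a, ha0, ha, hc,
    hG.div (hG.map (complexConj K).toRingEquiv (complexConj L).toRingEquiv fun t => complexConj_algebraMap t),
    fun g => ?_⟩
  have hfix : g • Ideal.span {a} = Ideal.span {a} := by rw [← ha, FA.CycloTower.smul_map_algebraMap]
  rw [FA.CycloTower.smul_span, Ideal.span_singleton_eq_span_singleton] at hfix
  obtain ⟨ε, hε⟩ := hfix.symm
  have he : g (a : L) = (a : L) * ((ε : 𝓞 L) : L) :=
    (congrArg (fun t : 𝓞 L => (t : L)) hε.symm).trans (map_mul _ _ _)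
  have haL : (a : L) ≠ 0 := RingOfIntegers.coe_ne_zero_iff.mpr ha0
  have hcaL : complexConj L (a : L) ≠ 0 := (map_ne_zero _).mpr haL
  rw [map_div₀, ← complexConj_comm, he, map_mul]
  convert unit_div_conj_pow ε using 2
  field_simp

/-- **Step one**: a class which becomes principal is fixed by conjugation. -/
theorem conj_eq_self_of_capitulation {m : ℕ} [NeZero m] [IsCyclotomicExtension {m} ℚ L] (hpm : p ∣ m)
    (h5 : 5 ≤ p) {x : ClassGroup (𝓞 K)} (hx : ClassGroup.extendedHom (𝓞 K) (𝓞 L) x = 1) :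
    conjClass K x = x := by
  have hp : p.Prime := Fact.out
  have : NeZero p := ⟨hp.ne_zero⟩
  obtain ⟨hcyc, hmM⟩ := isCyclotomicExtension_torsionOrder (L := L) m
  have := hcyc
  set M := Units.torsionOrder L with hMdef
  have hM0 : M ≠ 0 := Units.torsionOrder_ne_zero L
  have : NeZero M := ⟨hM0⟩
  obtain ⟨a, m', hm', hMeq⟩ := Nat.exists_eq_pow_mul_and_not_dvd hM0 p hp.ne_one
  have ha : a ≠ 0 := fun e => hm' (by
    have h := hpm.trans hmM
    rwa [hMeq, e, pow_zero, one_mul] at h)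
  obtain ⟨d, hd⟩ := IsCyclic.exists_generator (α := (ZMod p)ˣ)
  set t := (d : ZMod p).val
  have ht : ¬ p ∣ t := fun h => d.ne_zero (by
    rw [← ZMod.natCast_zmod_val (d : ZMod p), ZMod.natCast_eq_zero_iff]; exact h)
  obtain ⟨τ, σ, k, hσ, hτK, hτ, hk1, hk2, hcomm⟩ := exists_lift (K := K) (L := L) hMeq hm' ha ht
  rw [ZMod.natCast_zmod_val] at hσ
  have hσd : IsCyclotomicExtension.Rat.galEquivZMod p K σ = d := Units.ext hσ
  obtain ⟨I, rfl⟩ := ClassGroup.mk0_surjective x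
  obtain ⟨α, -, -, -, hG, hrat⟩ := exists_generator_ratio hx
  set b := (α : L) / complexConj L (α : L)
  set y := ClassGroup.mk0 I / conjClass K (ClassGroup.mk0 I) with hy
  set f := classAct (σ : K ≃ₐ[ℚ] K).toRingEquiv
  have hf : GensFrac (f y) (τ b) := hG.map σ.toRingEquiv τ.toRingEquiv hτK
  have hξ0 : ∀ {ξ : L}, ξ ^ M = 1 → ξ ≠ 0 := fun h e => by simp [e, zero_pow hM0] at h
  have hz : (f y / y) ^ p ^ a = 1 := by
    refine (hf.div hG).pow_eq_one _ fun g => ?_
    set ξ := g b / b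
    have hξ : ξ ^ M = 1 := hrat g
    have e : g (τ b / b) / (τ b / b) = ξ ^ k / ξ ^ 1 := by
      have h1 : g b = b * ξ := by rw [mul_div_cancel₀ _ hG.ne_zero]
      rw [map_div₀, hcomm, h1, map_mul, hτ ξ hξ, pow_one]
      have := hG.ne_zero
      have := hξ0 hξ
      have : τ b ≠ 0 := (map_ne_zero τ).mpr hG.ne_zero
      field_simp
    rw [e]
    refine pow_div_pow_eq_one (hξ0 hξ) hξ ?_
    rw [hMeq, mul_comm (p ^ a) m', one_mul]
    simpa using hk2.mul_right' (p ^ a)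
  have hw : (f y / y ^ t) ^ m' = 1 := by
    refine (hf.div (hG.pow t)).pow_eq_one _ fun g => ?_
    set ξ := g b / b
    have hξ : ξ ^ M = 1 := hrat g
    have e : g (τ b / b ^ t) / (τ b / b ^ t) = ξ ^ k / ξ ^ t := by
      have h1 : g b = b * ξ := by rw [mul_div_cancel₀ _ hG.ne_zero]
      rw [map_div₀, map_pow, hcomm, h1, map_mul, hτ ξ hξ, mul_pow]
      have := hG.ne_zero
      have := hξ0 hξ
      have : τ b ≠ 0 := (map_ne_zero τ).mpr hG.ne_zero
      field_simp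
    rw [e]
    refine pow_div_pow_eq_one (hξ0 hξ) hξ ?_
    rw [hMeq]
    exact hk1.mul_right' m'
  have hco : (p ^ a).Coprime m' := Nat.Coprime.pow_left _ (hp.coprime_iff_not_dvd.mpr hm')
  set z := f y / y with hzdef
  have hzt : f z = z ^ t := by
    refine div_eq_one.mp (orderOf_eq_one_iff.mp (Nat.eq_one_of_dvd_coprimes hco
      (orderOf_dvd_of_pow_eq_one ?_) (orderOf_dvd_of_pow_eq_one ?_)))
    · rw [div_pow, ← map_pow, hz, map_one, ← pow_mul, mul_comm, pow_mul, hz, one_pow, div_one]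
    · have e : f z / z ^ t = f (f y / y ^ t) / (f y / y ^ t) := by
        rw [hzdef, map_div f (f y) y, map_div f (f y) (y ^ t), map_pow, div_pow]
        exact div_div_div_comm _ _ _ _
      rw [e, div_pow, ← map_pow, hw, map_one, div_one]
  have hz1 : z = 1 := by
    by_contra hne
    obtain ⟨e, -, he⟩ := (Nat.dvd_prime_pow hp).mp (orderOf_dvd_of_pow_eq_one hz)
    obtain ⟨e', rfl⟩ : ∃ e', e = e' + 1 := Nat.exists_eq_succ_of_ne_zero fun h0 => hne (by
      rwa [h0, pow_zero, orderOf_eq_one_iff] at he)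
    set x₁ := z ^ p ^ e' with hx₁
    have hx1p : x₁ ^ p = 1 := by rw [hx₁, ← pow_mul, ← pow_succ, ← he, pow_orderOf_eq_one]
    have hx1ne : x₁ ≠ 1 := fun h => by
      have := orderOf_dvd_of_pow_eq_one h
      rw [he, Nat.pow_dvd_pow_iff_le_right hp.one_lt] at this
      omega
    have hfx : FA.Ext.sigmaCl p K d x₁ = x₁ ^ t := by
      have hs : FA.Ext.sigmaK p K d = σ := by
        rw [← hσd]; exact MulEquiv.symm_apply_apply _ σ
      show ClassGroup.mulEquiv (RingOfIntegers.mapRingEquiv (FA.Ext.sigmaK p K d).toRingEquiv) x₁ = _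
      rw [hs]
      show f (z ^ p ^ e') = _
      rw [map_pow, hzt, ← pow_mul, mul_comm, pow_mul]
    have heig : ∀ c : (ZMod p)ˣ, FA.Ext.sigmaCl p K c x₁ = x₁ ^ ((c : ZMod p) ^ 1).val := fun c => by
      obtain ⟨i, rfl⟩ := mem_powers_iff_mem_zpowers.mpr (hd c)
      have hpow : ∀ i : ℕ, FA.Ext.sigmaCl p K (d ^ i) x₁ = x₁ ^ t ^ i := fun i => by
        induction i with
        | zero =>
          rw [pow_zero, pow_zero, pow_one]
          show ClassGroup.mulEquiv (FA.Ext.sigma p K 1) x₁ = x₁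
          rw [map_one]
          exact ClassGroup.mulEquiv_refl_apply x₁
        | succ i ih => rw [pow_succ', FA.Ext.sigmaCl_mul, ih, map_pow, hfx, ← pow_mul, ← pow_succ']
      rw [hpow, pow_one, pow_eq_pow_mod (t ^ i) hx1p, Units.val_pow_eq_pow_val,
        ← ZMod.natCast_zmod_val (d : ZMod p), ← Nat.cast_pow, ZMod.val_natCast]
    have := (FA.Ext.herbrand p K h5 (by decide : Odd 1) (by omega) hx1p hx1ne heig).1
    omega
  have hgen : ∀ g : K ≃ₐ[ℚ] K, g ∈ Subgroup.zpowers σ := fun g => by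
    obtain ⟨i, hi⟩ := hd (IsCyclotomicExtension.Rat.galEquivZMod p K g)
    exact ⟨i, (IsCyclotomicExtension.Rat.galEquivZMod p K).injective (by rw [← hi, map_zpow, hσd])⟩
  have hy1 : y = 1 := by
    refine fixed_class_eq_one (p := p) hgen ?_
    exact (show FA.CycloTower.actCl σ y = f y from rfl).trans (div_eq_one.mp hz1)
  exact (div_eq_one.mp hy1).symm

/-- **Only classes from the real subfield become principal.** -/
theorem mem_range_of_capitulation {m : ℕ} [NeZero m] [IsCyclotomicExtension {m} ℚ L] (hpm : p ∣ m)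
    (h5 : 5 ≤ p) {x : ClassGroup (𝓞 K)} (hx : ClassGroup.extendedHom (𝓞 K) (𝓞 L) x = 1) :
    x ∈ (ClassGroup.extendedHom (𝓞 (maximalRealSubfield K)) (𝓞 K)).range := by
  have hconj := conj_eq_self_of_capitulation (p := p) hpm h5 hx
  have hp : p.Prime := Fact.out
  have : NeZero p := ⟨hp.ne_zero⟩
  obtain ⟨hcyc, hmM⟩ := isCyclotomicExtension_torsionOrder (L := L) m
  have := hcyc
  set M := Units.torsionOrder L with hMdef
  have hM0 : M ≠ 0 := Units.torsionOrder_ne_zero L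
  have : NeZero M := ⟨hM0⟩
  obtain ⟨a, m', hm', hMeq⟩ := Nat.exists_eq_pow_mul_and_not_dvd hM0 p hp.ne_one
  have ha : a ≠ 0 := fun e => hm' (by
    have h := hpm.trans hmM
    rwa [hMeq, e, pow_zero, one_mul] at h)
  obtain ⟨d, hd⟩ := IsCyclic.exists_generator (α := (ZMod p)ˣ)
  set t := (d : ZMod p).val
  have ht : ¬ p ∣ t := fun h => d.ne_zero (by
    rw [← ZMod.natCast_zmod_val (d : ZMod p), ZMod.natCast_eq_zero_iff]; exact h)
  obtain ⟨τ, σ, k, hσ, hτK, hτ, hk1, hk2, hcomm⟩ := exists_lift (K := K) (L := L) hMeq hm' ha ht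
  rw [ZMod.natCast_zmod_val] at hσ
  have hσd : IsCyclotomicExtension.Rat.galEquivZMod p K σ = d := Units.ext hσ
  have hgen : ∀ g : K ≃ₐ[ℚ] K, g ∈ Subgroup.zpowers σ := fun g => by
    obtain ⟨i, hi⟩ := hd (IsCyclotomicExtension.Rat.galEquivZMod p K g)
    exact ⟨i, (IsCyclotomicExtension.Rat.galEquivZMod p K).injective (by rw [← hi, map_zpow, hσd])⟩
  obtain ⟨I, rfl⟩ := ClassGroup.mk0_surjective x
  obtain ⟨α, hα0, hIα, hJα, -, -⟩ := exists_generator_ratio hx
  set cL := RingOfIntegers.mapRingEquiv (complexConj L).toRingEquiv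
  rw [conjClass_mk0] at hconj
  obtain ⟨u₁, u₂, hu₁, hu₂, hu⟩ := ClassGroup.mk0_eq_mk0_iff.mp hconj
  obtain ⟨ε, hε⟩ : ∃ ε : (𝓞 L)ˣ, algebraMap (𝓞 K) (𝓞 L) u₂ * α * ε = algebraMap (𝓞 K) (𝓞 L) u₁ * cL α := by
    have h := congrArg (Ideal.map (algebraMap (𝓞 K) (𝓞 L))) hu
    rw [Ideal.map_mul, Ideal.map_mul, hJα, hIα, Ideal.map_span, Ideal.map_span, Set.image_singleton,
      Set.image_singleton, Ideal.span_singleton_mul_span_singleton, Ideal.span_singleton_mul_span_singleton,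
      Ideal.span_singleton_eq_span_singleton] at h
    exact h.symm
  set s : K := (u₁ : K) / (u₂ : K) with hs
  have hu₁K : (u₁ : K) ≠ 0 := RingOfIntegers.coe_ne_zero_iff.mpr hu₁
  have hu₂K : (u₂ : K) ≠ 0 := RingOfIntegers.coe_ne_zero_iff.mpr hu₂
  have hs0 : s ≠ 0 := div_ne_zero hu₁K hu₂K
  have hsL : algebraMap K L s ≠ 0 := (map_ne_zero _).mpr hs0
  set E : L := ((ε : 𝓞 L) : L)
  have hE0 : E ≠ 0 := RingOfIntegers.coe_ne_zero_iff.mpr ε.ne_zero
  have hαL : (α : L) ≠ 0 := RingOfIntegers.coe_ne_zero_iff.mpr hα0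
  have hcαL : complexConj L (α : L) ≠ 0 := (map_ne_zero _).mpr hαL
  have hb : (α : L) * E = algebraMap K L s * complexConj L (α : L) := by
    have h := congrArg (fun z : 𝓞 L => (z : L)) hε
    simp only [map_mul] at h
    change algebraMap K L (u₂ : K) * (α : L) * E = algebraMap K L (u₁ : K) * complexConj L (α : L) at h
    rw [hs, map_div₀, div_mul_eq_mul_div, eq_div_iff ((map_ne_zero _).mpr hu₂K), ← h]
    ring
  have hEc : E * complexConj L E = algebraMap K L (s * complexConj K s) := by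
    have h := congrArg (complexConj L) hb
    rw [map_mul, map_mul, complexConj_apply_apply, complexConj_algebraMap] at h
    rw [map_mul]
    apply mul_left_cancel₀ (mul_ne_zero hαL hcαL)
    linear_combination (complexConj L (α : L) * complexConj L E) * hb +
      (algebraMap K L s * complexConj L (α : L)) * h
  have hfixU : ∀ g : L ≃ₐ[K] L, g • ((ε * unitsComplexConj L ε : (𝓞 L)ˣ) : 𝓞 L) =
      ((ε * unitsComplexConj L ε : (𝓞 L)ˣ) : 𝓞 L) := fun g => RingOfIntegers.ext (by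
    show g (E * complexConj L E) = E * complexConj L E
    rw [hEc, AlgEquiv.commutes])
  obtain ⟨u, hu'⟩ := exists_inclUnits_eq hfixU
  have huK : ((u : 𝓞 K) : K) = s * complexConj K s := (algebraMap K L).injective (by
    rw [← hEc]
    exact (congrArg (fun z : (𝓞 L)ˣ => ((z : 𝓞 L) : L)) hu').trans (map_mul _ _ _))
  have hpos : ∀ φ : K →+* ℂ, ∃ r : ℝ, 0 < r ∧ φ ((u : 𝓞 K) : K) = (r : ℂ) := fun φ =>
    ⟨Complex.normSq (φ s), Complex.normSq_pos.mpr ((map_ne_zero φ).mpr hs0), by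
      rw [huK, map_mul, complexEmbedding_complexConj, Complex.mul_conj]⟩
  set η : L := E / complexConj L E with hη
  have hηM : η ^ M = 1 := unit_div_conj_pow ε
  have hη0 : η ≠ 0 := div_ne_zero hE0 ((map_ne_zero _).mpr hE0)
  set U : L := algebraMap K L ((u : 𝓞 K) : K) with hU
  have hEE : E ^ 2 = η * U := by
    rw [hU, huK, ← hEc, hη]
    field_simp [(map_ne_zero (complexConj L)).mpr hE0]
  set P := p ^ a
  have hPodd : Odd P := (hp.odd_of_ne_two (by omega)).pow
  obtain ⟨h, hh⟩ := hPodd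
  have hkey : ∀ ξ : L, ξ ^ M = 1 → (τ ξ / ξ) ^ P = 1 := fun ξ hξ => by
    rw [hτ ξ hξ]
    conv => lhs; arg 1; arg 2; rw [← pow_one ξ]
    refine pow_div_pow_eq_one (fun e => by simp [e, zero_pow hM0] at hξ) hξ ?_
    rw [hMeq, mul_comm (p ^ a) m']
    exact hk2.mul_right' (p ^ a)
  set θ : L := τ η / η with hθ
  have hθP : θ ^ P = 1 := hkey η hηM
  set θ' : L := θ ^ (h + 1) with hθ'
  have hθ'P : θ' ^ P = 1 := by rw [hθ', ← pow_mul, mul_comm, pow_mul, hθP, one_pow]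
  have hθ'2 : θ' ^ 2 = θ := by
    rw [hθ', ← pow_mul, show (h + 1) * 2 = P + 1 by omega, pow_succ, hθP, one_mul]
  have hθ'0 : θ' ≠ 0 := fun e => by rw [e, zero_pow (by omega : P ≠ 0)] at hθ'P; exact zero_ne_one hθ'P
  set w : L := τ E / (E * θ') with hw
  have hτE : τ E ≠ 0 := (map_ne_zero τ).mpr hE0
  have hw2 : w ^ 2 = algebraMap K L (σ ((u : 𝓞 K) : K) / ((u : 𝓞 K) : K)) := by
    rw [map_div₀ (algebraMap K L), ← hτK, ← hU, hw, div_pow, mul_pow, hθ'2, ← map_pow, hEE, map_mul, hθ]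
    have hU0 : U ≠ 0 := (map_ne_zero _).mpr (RingOfIntegers.coe_ne_zero_iff.mpr u.ne_zero)
    have := (map_ne_zero τ).mpr hη0
    field_simp
  have hwfix : ∀ g : L ≃ₐ[K] L, g w = w := fun g => by
    set χ := g E / E with hχ
    have hgE : g E = E * χ := by rw [hχ, mul_div_cancel₀ _ hE0]
    have hχM : χ ^ M = 1 := by
      refine pow_torsionOrder_eq_one (n := 2 * M) (by omega) ?_
      rw [pow_mul, hχ, div_pow, ← map_pow, hEE, map_mul, hU, AlgEquiv.commutes, ← hU,
        mul_div_mul_right _ _ ((map_ne_zero _).mpr (RingOfIntegers.coe_ne_zero_iff.mpr u.ne_zero)), div_pow,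
        ← map_pow, hηM, map_one, one_div_one]
    have hχ0 : χ ≠ 0 := div_ne_zero ((map_ne_zero _).mpr hE0) hE0
    have hw0 : w ≠ 0 := div_ne_zero hτE (mul_ne_zero hE0 hθ'0)
    have hgθ0 : g θ' ≠ 0 := (map_ne_zero g).mpr hθ'0
    have h1 : g w / w = (τ χ / χ) / (g θ' / θ') := by
      rw [hw, map_div₀, map_mul, hcomm, hgE, map_mul]
      have := (map_ne_zero τ).mpr hχ0
      field_simp
    have hP' : (g w / w) ^ P = 1 := by
      rw [h1, div_pow, hkey χ hχM, div_pow, ← map_pow, hθ'P, map_one, div_one, div_one]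
    have h2' : (g w / w) ^ 2 = 1 := by
      rw [div_pow, ← map_pow, hw2, AlgEquiv.commutes, div_self (by rw [← hw2]; exact pow_ne_zero _ hw0)]
    rw [hh, pow_succ, pow_mul, h2', one_pow, one_mul] at hP'
    exact div_eq_one_iff_eq hw0 |>.mp hP'
  obtain ⟨w₀, hw₀⟩ := (IsGalois.mem_range_algebraMap_iff_fixed (F := K) w).mpr hwfix
  have hw₀2 : w₀ ^ 2 = σ ((u : 𝓞 K) : K) / ((u : 𝓞 K) : K) :=
    (algebraMap K L).injective (by rw [map_pow, hw₀, hw2])
  set q : (𝓞 K)ˣ := FA.CycloTower.actU σ u * u⁻¹ with hq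
  have hqK : ((q : 𝓞 K) : K) = w₀ ^ 2 := by
    rw [hw₀2, eq_div_iff (RingOfIntegers.coe_ne_zero_iff.mpr u.ne_zero), ← map_mul, ← Units.val_mul, hq,
      inv_mul_cancel_right]
    rfl
  have hw₀int : IsIntegral ℤ w₀ := IsIntegral.of_pow two_pos (hqK ▸ (q : 𝓞 K).isIntegral_coe)
  let ww : 𝓞 K := ⟨w₀, hw₀int⟩
  have hw₀sq : ww ^ 2 = (q : 𝓞 K) := Subtype.ext hqK.symm
  obtain ⟨wu, hwu⟩ : IsUnit ww := (isUnit_pow_iff two_ne_zero).mp (hw₀sq ▸ q.isUnit)
  have hwu' : ((wu : 𝓞 K) : K) = w₀ := congrArg (fun z : 𝓞 K => (z : K)) hwu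
  obtain ⟨v, hv⟩ := exists_mul_conj_eq (p := p) (by omega) hgen (w := wu) hpos (by
    rw [hwu', hw₀2, mul_div_cancel₀ _ (RingOfIntegers.coe_ne_zero_iff.mpr u.ne_zero)])
  set c : K := s / ((v : 𝓞 K) : K) with hc
  have hv0 : ((v : 𝓞 K) : K) ≠ 0 := RingOfIntegers.coe_ne_zero_iff.mpr v.ne_zero
  have hNc : Algebra.norm (maximalRealSubfield K) c = 1 := (algebraMap (maximalRealSubfield K) K).injective (by
    rw [map_one, algebraMap_norm_real, hc, map_div₀, div_mul_div_comm, ← huK, ← hv]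
    exact div_self (RingOfIntegers.coe_ne_zero_iff.mpr u.ne_zero))
  have hJgen : ∀ g : K ≃ₐ[maximalRealSubfield K] K, g ∈ Subgroup.zpowers (complexConj K) := fun g => by
    rw [zpowers_complexConj_eq_top]; trivial
  obtain ⟨δ, hδ, hδc⟩ := FA.CycloTower.exists_integral_hilbert90 hJgen hNc
  set cK := RingOfIntegers.mapRingEquiv (complexConj K).toRingEquiv
  have hmain : α * (ε : 𝓞 L) * algebraMap (𝓞 K) (𝓞 L) (cK δ) =
      cL α * algebraMap (𝓞 K) (𝓞 L) δ * algebraMap (𝓞 K) (𝓞 L) (v : 𝓞 K) := by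
    refine RingOfIntegers.coe_injective ?_
    simp only [map_mul]
    show (α : L) * E * algebraMap K L (complexConj K (δ : K)) =
      complexConj L (α : L) * algebraMap K L (δ : K) * algebraMap K L ((v : 𝓞 K) : K)
    rw [hb]
    conv_rhs => rw [← hδc]
    rw [hc, map_mul, map_div₀ (algebraMap K L) s]
    field_simp [(map_ne_zero (algebraMap K L)).mpr hv0]
  set B : Ideal (𝓞 K) := (I : Ideal (𝓞 K)) * Ideal.span {cK δ} with hBdef
  have hcδ : cK δ ≠ 0 := (map_ne_zero_iff cK cK.injective).mpr hδ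
  have hB : B ≠ ⊥ := mul_ne_zero (mem_nonZeroDivisors_iff_ne_zero.mp I.2)
    (fun e => hcδ (Ideal.span_singleton_eq_bot.mp e))
  have hBeq : (conjIdeal K I : Ideal (𝓞 K)) * Ideal.span {δ} = B := by
    refine Ideal.map_injective_of_faithfullyFlat (B := 𝓞 L) ?_
    rw [hBdef, Ideal.map_mul, Ideal.map_mul, hJα, hIα, Ideal.map_span, Ideal.map_span, Set.image_singleton,
      Set.image_singleton, Ideal.span_singleton_mul_span_singleton, Ideal.span_singleton_mul_span_singleton,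
      ← Ideal.span_singleton_mul_right_unit ((inclUnits K L v).isUnit),
      ← Ideal.span_singleton_mul_right_unit ε.isUnit (α * algebraMap (𝓞 K) (𝓞 L) (cK δ)),
      mul_right_comm α, hmain]
    rfl
  have hBJ : complexConj K • B = B := by
    conv_rhs => rw [← hBeq]
    rw [hBdef, smul_mul', FA.CycloTower.smul_span]
    rw [show complexConj K • cK δ = δ from RingOfIntegers.ext (complexConj_apply_apply K (δ : K))]
    rfl
  obtain ⟨k', J, hJ⟩ := exists_decomp_prime (F := maximalRealSubfield K) (IsCyclotomicExtension.zeta_spec p ℚ K)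
    hB (FA.CycloTower.smul_fixed_of_generator hJgen hBJ)
  have hJ0 : J ∈ (Ideal (𝓞 (maximalRealSubfield K)))⁰ :=
    mem_nonZeroDivisors_iff_ne_zero.mpr fun e => hB (by rw [hJ, e, Ideal.zero_eq_bot, Ideal.map_bot, Ideal.mul_bot])
  refine ⟨ClassGroup.mk0 ⟨J, hJ0⟩, ?_⟩
  rw [ClassGroup.extendedHom_mk0]
  set π := (IsCyclotomicExtension.zeta_spec p ℚ K).toInteger - 1
  have hπ0 : π ^ k' ≠ 0 := fun e => hB (by
    rw [hJ, Ideal.span_singleton_pow, e, Ideal.span_singleton_eq_bot.mpr rfl, Ideal.bot_mul])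
  refine (ClassGroup.mk0_eq_mk0_iff).mpr ⟨π ^ k', cK δ, hπ0, hcδ, ?_⟩
  rw [← Ideal.span_singleton_pow, mul_comm _ (I : Ideal (𝓞 K))]
  exact hJ.symm

end FA.ClassField94
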