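import Fermat.Agent.Regular.LogDerivative
import Fermat.Agent.Regular.VandiverReal

/-!
# Vanishing logarithmic derivatives

The converse of `logDer_eq_zero_of_congr_int`: a unit whose logarithmic derivatives of all weights below `p - 1`
vanish is congruent to a rational integer modulo `p`.
-/

set_option autoImplicit false

noncomputable section

open NumberField Polynomial

namespace FA.ClassField94

variable {p : ℕ}

/-- The first moment not killed by `(X - 1) ^ N`. -/
theorem momentAt_pow_mul (N : ℕ) : ∀ q : (ZMod p)[X],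
    FA.Regular.momentAt p N ((X - 1) ^ N * q) = (N.factorial : ZMod p) * q.eval 1 := by
  induction N with
  | zero => intro q; simp [FA.Regular.momentAt_zero]
  | succ N ih =>
    intro q
    have he : FA.Regular.eulerOp p ((X - 1) ^ (N + 1) * q) =
        (X - 1) ^ N * (C ((N + 1 : ℕ) : ZMod p) * X * q + (X - 1) * FA.Regular.eulerOp p q) := by
      rw [FA.Regular.eulerOp_mul, FA.Regular.eulerOp_apply p ((X - 1) ^ (N + 1)), derivative_pow, derivative_sub,
        derivative_X, derivative_one, sub_zero, mul_one, Nat.add_sub_cancel, pow_succ]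
      ring
    rw [FA.Regular.momentAt_succ, he, ih, Nat.factorial_succ]
    simp only [eval_add, eval_mul, eval_C, eval_X, eval_sub, eval_one, sub_self, zero_mul, add_zero, mul_one]
    push_cast
    ring

variable [Fact p.Prime]

theorem sub_one_eq : (X - 1 : (ZMod p)[X]) = X - C 1 := by rw [C_1]

/-- Moments detect powers of `X - 1`. -/
theorem pow_dvd_of_momentAt {N : ℕ} (hN : N ≤ p) {h : (ZMod p)[X]}
    (hh : ∀ i < N, FA.Regular.momentAt p i h = 0) : (X - 1) ^ N ∣ h := by
  induction N with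
  | zero => simp
  | succ N ih =>
    obtain ⟨q, rfl⟩ := ih (by omega) fun i hi => hh i (by omega)
    have h0 := hh N (by omega)
    rw [momentAt_pow_mul] at h0
    have hf : (N.factorial : ZMod p) ≠ 0 := fun e => by
      rw [ZMod.natCast_eq_zero_iff, (Fact.out : p.Prime).dvd_factorial] at e
      omega
    rw [pow_succ]
    refine mul_dvd_mul_left _ ?_
    rw [sub_one_eq, dvd_iff_isRoot]
    exact (mul_eq_zero.mp h0).resolve_left hf

/-- In characteristic `p` a small derivative means near constant. -/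
theorem pow_dvd_sub_eval {k : ℕ} (hk : k + 1 < p) {f : (ZMod p)[X]} (hf : (X - 1) ^ k ∣ derivative f) :
    (X - 1) ^ (k + 1) ∣ f - C (f.eval 1) := by
  suffices h : ∀ m ≤ k + 1, (X - 1) ^ m ∣ f - C (f.eval 1) from h _ le_rfl
  intro m hm
  induction m with
  | zero => simp
  | succ m ih =>
    obtain ⟨q, hq⟩ := ih (by omega)
    rw [hq, pow_succ]
    refine mul_dvd_mul_left _ ?_
    rcases m with _ | m
    · rw [pow_zero, one_mul] at hq
      rw [← hq, sub_one_eq, dvd_iff_isRoot]
      simp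
    have hd := congrArg derivative hq
    rw [derivative_sub, derivative_C, sub_zero, derivative_mul, derivative_pow, derivative_sub, derivative_X,
      derivative_one, sub_zero, mul_one, Nat.add_sub_cancel, pow_succ] at hd
    rw [hd, mul_comm (C _) ((X - 1) ^ m), mul_assoc, mul_assoc, ← mul_add] at hf
    have hX : (X - 1 : (ZMod p)[X]) ≠ 0 := by rw [sub_one_eq]; exact X_sub_C_ne_zero 1
    have hpow : (X - 1) ^ m * (X - 1) ∣ (X - 1 : (ZMod p)[X]) ^ k := by
      rw [← pow_succ]; exact pow_dvd_pow _ (by omega)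
    have h2 := (mul_dvd_mul_iff_left (pow_ne_zero m hX)).mp (hpow.trans hf)
    have h3 : (X - 1 : (ZMod p)[X]) ∣ C ((m + 1 : ℕ) : ZMod p) * q :=
      (dvd_add_left (dvd_mul_right _ _)).mp h2
    have hm0 : ((m + 1 : ℕ) : ZMod p) ≠ 0 := fun e => by
      rw [ZMod.natCast_eq_zero_iff] at e
      have := Nat.le_of_dvd (by omega) e
      omega
    exact ((isUnit_C.mpr (Ne.isUnit hm0)).dvd_mul_left).mp h3

variable (p) (K : Type*) [Field K] [NumberField K] [IsCyclotomicExtension {p} ℚ K]

/-- The kernel of the reduction modulo `p`. -/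
theorem dvd_of_redHom_eq_zero (h3 : 3 ≤ p) {x : 𝓞 K} (hx : FA.Regular.redHom p K x = 0) : (p : 𝓞 K) ∣ x := by
  obtain ⟨g, hg⟩ := (IsCyclotomicExtension.zeta_spec p ℚ K).integralPowerBasis.exists_eq_aeval' x
  rw [show (IsCyclotomicExtension.zeta_spec p ℚ K).integralPowerBasis.gen = FA.Ext.zetaInt p K from
    IsPrimitiveRoot.integralPowerBasis_gen _] at hg
  rw [hg, FA.Regular.redHom_aeval] at hx
  obtain ⟨r, hr⟩ := Ideal.mem_span_singleton.mp (Ideal.Quotient.eq_zero_iff_mem.mp hx)
  obtain ⟨R, rfl⟩ := map_surjective (Int.castRingHom (ZMod p)) ZMod.intCast_surjective r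
  have h0 : (g - (X - 1) ^ (p - 1) * R).map (Int.castRingHom (ZMod p)) = 0 := by
    rw [Polynomial.map_sub, Polynomial.map_mul, Polynomial.map_pow, Polynomial.map_sub, map_X, Polynomial.map_one,
      hr, sub_self]
  have hdvd : C ((p : ℤ)) ∣ g - (X - 1) ^ (p - 1) * R := by
    rw [C_dvd_iff_dvd_coeff]
    intro i
    have h := congrArg (fun P : (ZMod p)[X] => P.coeff i) h0
    simp only [coeff_map, coeff_zero, eq_intCast] at h
    exact (ZMod.intCast_zmod_eq_zero_iff_dvd _ p).1 h
  obtain ⟨S, hS⟩ := hdvd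
  have h := congrArg (aeval (FA.Ext.zetaInt p K)) hS
  simp only [map_sub, map_mul, map_pow, aeval_X, map_one, aeval_C, ← hg, sub_eq_iff_eq_add] at h
  rw [h, eq_intCast, Int.cast_natCast]
  exact dvd_add (dvd_mul_right _ _) ((FA.Regular.cycloRing_zetaInt p K h3).assoc.symm.dvd.mul_right _)

/-- **Vanishing logarithmic derivatives mean congruence to an integer.** -/
theorem exists_congr_int (h3 : 3 ≤ p) (u : (𝓞 K)ˣ) (h : ∀ j, j + 3 ≤ p → FA.Regular.logDer p K j u = 0) :
    ∃ n : ℤ, (p : 𝓞 K) ∣ (u : 𝓞 K) - (n : 𝓞 K) := by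
  set f := FA.Regular.repPoly p K (u : 𝓞 K)
  set g := FA.Regular.repPoly p K ((u⁻¹ : (𝓞 K)ˣ) : 𝓞 K)
  have h1 : (X - 1) ^ (p - 2) ∣ FA.Regular.eulerOp p f * g :=
    pow_dvd_of_momentAt (by omega) fun i hi => h i (by omega)
  have hfg : Ideal.Quotient.mk (FA.Regular.truncIdeal p) (1 : (ZMod p)[X]) =
      Ideal.Quotient.mk (FA.Regular.truncIdeal p) (g * f) := by
    rw [map_mul, FA.Regular.mk_repPoly, FA.Regular.mk_repPoly, ← map_mul, Units.inv_mul, map_one, map_one]
  have h2 : (X - 1) ^ (p - 2) ∣ X * derivative f := by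
    rw [← FA.Regular.eulerOp_apply,
      show FA.Regular.eulerOp p f = FA.Regular.eulerOp p f * g * f + FA.Regular.eulerOp p f * (1 - g * f) by ring]
    exact dvd_add (h1.mul_right f) ((((pow_dvd_pow _ (by omega)).trans
      (Ideal.mem_span_singleton.mp (Ideal.Quotient.eq.mp hfg))).mul_left _))
  have hcop : IsCoprime ((X - 1 : (ZMod p)[X]) ^ (p - 2)) X := IsCoprime.pow_left ⟨-1, 1, by ring⟩
  have h4 := pow_dvd_sub_eval (k := p - 2) (f := f) (by omega) (hcop.dvd_of_dvd_mul_left h2)
  rw [show p - 2 + 1 = p - 1 by omega] at h4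
  obtain ⟨n, hn⟩ := ZMod.intCast_surjective (f.eval 1)
  refine ⟨n, dvd_of_redHom_eq_zero p K h3 ?_⟩
  rw [map_sub, map_intCast, ← FA.Regular.mk_repPoly, ← map_intCast (Ideal.Quotient.mk (FA.Regular.truncIdeal p)),
    ← map_sub]
  refine Ideal.Quotient.eq_zero_iff_mem.mpr (Ideal.mem_span_singleton.mpr ?_)
  rwa [← hn, map_intCast] at h4

end FA.ClassField94
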