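import Fermat.Agent.Regular.CyclotomicUnitIndex
import Mathlib.LinearAlgebra.Eigenspace.Charpoly

/-!
# Units in every even weight

For even `2 ≤ k ≤ p - 3` some unit of `ℚ(ζ_p)` has a weight `k` projection which is no root of unity times a `p`-th
power, since `γ ^ k` is an eigenvalue of a generator on the units modulo `p`; when `p` does not divide the index of
the cyclotomic units, a cyclotomic one does.
-/

set_option autoImplicit false

noncomputable section

open NumberField Polynomial Module

namespace FA.ClassField94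

variable (p : ℕ) [Fact p.Prime] (K : Type*) [Field K] [NumberField K] [IsCyclotomicExtension {p} ℚ K]

omit [IsCyclotomicExtension {p} ℚ K] in
/-- The coordinates of roots of unity times `p`-th powers vanish. -/
theorem unitModP_eq_zero_of_mem {u : (𝓞 K)ˣ} (hu : u ∈ FA.Regular.rootTimesPow p K) :
    FA.Ext.unitModP p u = 0 := by
  obtain ⟨t, ht, w, rfl⟩ := (FA.Regular.mem_rootTimesPow p K).mp hu
  have h1 : FA.Ext.unitModP p t = 0 := by
    have h := FA.Ext.unitCoord_mul_prod ht (fun _ => (0 : ℤ))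
    simp only [zpow_zero, Finset.prod_const_one, mul_one] at h
    ext i
    simp [FA.Ext.unitModP, h]
  rw [FA.Ext.unitModP_mul, FA.Ext.unitModP_pow, h1, zero_add, ← Nat.cast_smul_eq_nsmul (ZMod p) p,
    ZMod.natCast_self, zero_smul]

/-- **A unit in every even weight.** -/
theorem exists_unitProj_not_mem (h5 : 5 ≤ p) {k : ℕ} (hev : Even k) (h2 : 2 ≤ k) (hk : k ≤ p - 3) :
    ∃ u : (𝓞 K)ˣ, FA.Regular.unitProj p K k u ∉ FA.Regular.rootTimesPow p K := by
  classical
  have hp : p.Prime := Fact.out
  have : NeZero p := ⟨hp.ne_zero⟩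
  obtain ⟨γ, hγ⟩ := IsCyclic.exists_generator (α := (ZMod p)ˣ)
  have hord : orderOf γ = p - 1 := by
    rw [orderOf_eq_card_of_forall_mem_zpowers hγ, Nat.card_eq_fintype_card, ZMod.card_units p]
  set A := (FA.Ext.unitMatrix K p γ).map (Int.cast : ℤ → ZMod p) with hA
  set c : ZMod p := (γ : ZMod p) ^ k with hc
  have hcard : Fintype.card (InfinitePlace K) = (p - 1) / 2 := by
    rw [InfinitePlace.card_eq_nrRealPlaces_add_nrComplexPlaces,
      IsCyclotomicExtension.Rat.nrRealPlaces_eq_zero (n := p) K (by omega),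
      IsCyclotomicExtension.Rat.nrComplexPlaces_eq_totient_div_two p K, Nat.totient_prime hp, zero_add]
  have hroot : A.charpoly.IsRoot c := by
    have h1 := congrArg (Polynomial.map (Int.castRingHom (ZMod p))) (FA.Ext.charpoly_unitMatrix K p hγ)
    rw [Polynomial.map_mul, ← Matrix.charpoly_map] at h1
    simp only [Polynomial.map_sub, Polynomial.map_pow, Polynomial.map_X, Polynomial.map_one] at h1
    have h3 := congrArg (Polynomial.eval c) h1
    simp only [eval_mul, eval_sub, eval_pow, eval_X, eval_one] at h3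
    obtain ⟨i, rfl⟩ := hev
    have hpow : c ^ Fintype.card (InfinitePlace K) = 1 := by
      rw [hc, hcard, ← pow_mul, ← Units.val_pow_eq_pow_val, show (i + i) * ((p - 1) / 2) = (p - 1) * i by
        have := hp.eq_two_or_odd
        obtain ⟨q, hq⟩ : ∃ q, p - 1 = q + q := ⟨(p - 1) / 2, by omega⟩
        rw [hq, show (q + q) / 2 = q by omega]; ring,
        ← hord, pow_mul, pow_orderOf_eq_one, one_pow, Units.val_one]
    rw [hpow, sub_self] at h3
    refine (mul_eq_zero.mp h3).resolve_right fun h4 => ?_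
    have h6 : γ ^ (i + i) = 1 := Units.ext (by
      rw [Units.val_pow_eq_pow_val, Units.val_one, ← hc]; exact sub_eq_zero.mp h4)
    have := Nat.le_of_dvd (by omega) (orderOf_dvd_of_pow_eq_one h6)
    omega
  set φ : Module.End (ZMod p) (Fin (Units.rank K) → ZMod p) := Matrix.toLin' A
  have hφ : φ.HasEigenvalue c := by
    rw [Module.End.hasEigenvalue_iff_isRoot_charpoly, show φ.charpoly = A.charpoly by
      rw [← LinearMap.charpoly_toMatrix φ (Pi.basisFun (ZMod p) _)]
      congr 1
      rw [LinearMap.toMatrix_eq_toMatrix', LinearMap.toMatrix'_toLin']]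
    exact hroot
  obtain ⟨v, hv⟩ := hφ.exists_hasEigenvector
  set u : (𝓞 K)ˣ := ∏ i, Units.fundSystem K i ^ ((v i).val : ℤ) with hu
  have huv : FA.Ext.unitModP p u = v := by
    have h := FA.Ext.unitCoord_mul_prod (K := K) (one_mem (Units.torsion K)) (fun i => ((v i).val : ℤ))
    rw [one_mul] at h
    ext i
    show ((FA.Ext.unitCoord u i : ℤ) : ZMod p) = v i
    rw [hu, h]
    simp
  have hstep : ∀ w : (𝓞 K)ˣ, FA.Ext.unitModP p (FA.Ext.sigmaU p K γ w) = A.mulVec (FA.Ext.unitModP p w) := by
    intro w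
    ext i
    have h3 := congrArg (Int.castRingHom (ZMod p)) (congrFun (FA.Ext.unitCoord_sigmaU K p γ w) i)
    rw [RingHom.map_mulVec] at h3
    exact h3
  have heig : A.mulVec v = c • v := by
    rw [← Matrix.toLin'_apply]; exact Module.End.mem_eigenspace_iff.mp hv.1
  have hsig : ∀ d : (ZMod p)ˣ, FA.Ext.unitModP p (FA.Ext.sigmaU p K d u) = ((d : ZMod p) ^ k) • v := by
    intro d
    obtain ⟨i, rfl⟩ := mem_powers_iff_mem_zpowers.mpr (hγ d)
    clear hroot
    induction i with
    | zero => simp [FA.Ext.sigmaU_one, huv]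
    | succ i ih =>
      simp only at ih ⊢
      rw [pow_succ', FA.Ext.sigmaU_mul, hstep, ih, Matrix.mulVec_smul, heig, smul_smul, Units.val_mul, mul_pow, hc,
        mul_comm]
  refine ⟨u, fun hmem => hv.2 ?_⟩
  have h := unitModP_eq_zero_of_mem p K hmem
  have hprod : FA.Ext.unitModP p (FA.Regular.unitProj p K k u) =
      ∑ d : (ZMod p)ˣ, ((d : ZMod p) ^ k).val • FA.Ext.unitModP p (FA.Ext.sigmaU p K d⁻¹ u) := by
    rw [FA.Regular.unitProj_apply]
    refine Finset.induction_on (Finset.univ : Finset (ZMod p)ˣ) ?_ fun a s ha ih => ?_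
    · simpa using unitModP_eq_zero_of_mem p K (one_mem (FA.Regular.rootTimesPow p K))
    · rw [Finset.prod_insert ha, Finset.sum_insert ha, FA.Ext.unitModP_mul, FA.Ext.unitModP_pow, ih]
  rw [hprod] at h
  simp only [hsig, ← Nat.cast_smul_eq_nsmul (ZMod p), ZMod.natCast_zmod_val, smul_smul, ← mul_pow,
    Units.mul_inv, one_pow, one_smul, Finset.sum_const, Finset.card_univ, ZMod.card_units p] at h
  rw [Nat.cast_sub hp.one_le, ZMod.natCast_self, Nat.cast_one, zero_sub, neg_smul, one_smul, neg_eq_zero] at h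
  exact h

/-- **A good cyclotomic unit** when `p` does not divide the index. -/
theorem exists_cycU_good (h5 : 5 ≤ p) (hidx : ¬ p ∣ (FA.Regular.cycloUnits p K).index) {k : ℕ} (hev : Even k)
    (h2 : 2 ≤ k) (hk : k ≤ p - 3) :
    ∃ (a : ℕ) (ha : (a : ZMod p) ≠ 0),
      FA.Regular.unitProj p K k (FA.Regular.cycU p K ha) ∉ FA.Regular.rootTimesPow p K := by
  by_contra! hno
  obtain ⟨u, hu⟩ := exists_unitProj_not_mem p K h5 hev h2 hk
  have hle : FA.Regular.cycloUnits p K ≤
      (FA.Regular.rootTimesPow p K).comap (FA.Regular.unitProj p K k) := by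
    refine sup_le (fun t ht => Subgroup.mem_sup_left (FA.Regular.unitProj_mem_torsion p K k ht)) ?_
    rw [Subgroup.closure_le]
    rintro _ ⟨⟨a, ha⟩, rfl⟩
    exact hno a ha
  have h := hle (Subgroup.pow_index_mem (FA.Regular.cycloUnits p K) u)
  rw [Subgroup.mem_comap, map_pow] at h
  exact hu (FA.Regular.pow_mem_rootTimesPow_iff p K hidx h)

end FA.ClassField94
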