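import Fermat.Agent.ClassField94.Main
import Fermat.Agent.Regular.VandiverReal
import Mathlib.FieldTheory.KummerExtension
import Mathlib.RingTheory.DedekindDomain.Different

/-!
# Kummer's unramified extensions

A unit `u` of `ℚ(ζ_p)` congruent to an integer modulo `p` is, by its norm, congruent to a `p`-th power `y ^ p` modulo
`π ^ p`, `π = ζ - 1`. So `θ = (u^(1/p) - y) / π` is integral with a unit for the derivative of its equation: the
different of `K(u^(1/p))/K` is trivial.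
-/

set_option autoImplicit false

noncomputable section

open NumberField Polynomial

namespace FA.ClassField94

variable (p : ℕ) [Fact p.Prime] (K : Type) [Field K] [NumberField K] [IsCyclotomicExtension {p} ℚ K]

/-- The product of the conjugates of a unit. -/
theorem prod_sigmaU_sq (u : (𝓞 K)ˣ) : (∏ d : (ZMod p)ˣ, FA.Ext.sigmaU p K d⁻¹ u) ^ 2 = 1 := by
  have : IsGalois ℚ K := IsCyclotomicExtension.isGalois {p} ℚ K
  have h1 : ((∏ d : (ZMod p)ˣ, FA.Ext.sigmaU p K d⁻¹ u : (𝓞 K)ˣ) : K) =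
      algebraMap ℚ K (Algebra.norm ℚ ((u : 𝓞 K) : K)) := by
    rw [Algebra.norm_eq_prod_automorphisms, Units.coe_prod, map_prod]
    refine Fintype.prod_equiv ((Equiv.inv _).trans
      (IsCyclotomicExtension.Rat.galEquivZMod p K).symm.toEquiv) _ _ fun d => ?_
    rw [FA.Ext.sigmaU_coe]
    rfl
  have h2 : (Algebra.norm ℚ ((u : 𝓞 K) : K)) ^ 2 = 1 := by
    rw [← sq_abs]
    exact (congrArg (· ^ 2) (NumberField.Units.norm (K := K) u)).trans (one_pow 2)
  refine Units.ext (RingOfIntegers.coe_injective ?_)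
  rw [Units.val_pow_eq_pow_val, map_pow, Units.val_one, map_one]
  exact (congrArg (· ^ 2) h1).trans (by rw [← map_pow, h2, map_one])

/-- **A unit congruent to an integer modulo `p` is congruent to a `p`-th power modulo `π ^ p`.** -/
theorem exists_pow_congr (h3 : 3 ≤ p) (u : (𝓞 K)ˣ) {n : ℤ} (hn : (p : 𝓞 K) ∣ (u : 𝓞 K) - (n : 𝓞 K)) :
    ∃ y : 𝓞 K, (FA.Ext.zetaInt p K - 1) ^ p ∣ (u : 𝓞 K) - y ^ p := by
  have hp : p.Prime := Fact.out
  have H := FA.Regular.cycloRing_zetaInt p K h3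
  set z := FA.Ext.zetaInt p K with hz
  obtain ⟨c, hc⟩ := hn
  obtain ⟨k, hk⟩ := H.residue c
  set m : ℤ := n + p * k
  have hm : (z - 1) ^ p ∣ (u : 𝓞 K) - (m : 𝓞 K) := by
    rw [show (u : 𝓞 K) - (m : 𝓞 K) = (p : 𝓞 K) * (c - (k : 𝓞 K)) by
      simp only [m]; push_cast; linear_combination hc,
      show (z - 1) ^ p = (z - 1) ^ (p - 1) * (z - 1) by rw [← pow_succ, Nat.sub_add_cancel hp.one_le]]
    exact mul_dvd_mul H.lam_dvd_prime hk
  set I := Ideal.span {(z - 1) ^ p}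
  let q := Ideal.Quotient.mk I
  have hq : ∀ d : (ZMod p)ˣ, q (FA.Ext.sigmaU p K d⁻¹ u : 𝓞 K) = q (m : 𝓞 K) := fun d => by
    refine Ideal.Quotient.eq.mpr (Ideal.mem_span_singleton.mpr ?_)
    rw [FA.Ext.sigmaU_coe]
    obtain ⟨e, he⟩ := hm
    have h := congrArg (FA.Ext.sigma p K d⁻¹) he
    rw [map_sub, map_intCast, map_mul, map_pow, map_sub, map_one, hz, FA.Ext.sigma_zetaInt, ← hz] at h
    rw [h]
    exact (pow_dvd_pow_of_dvd (sub_one_dvd_pow_sub_one z _) p).mul_right _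
  set U := ∏ d : (ZMod p)ˣ, FA.Ext.sigmaU p K d⁻¹ u
  have hU : q (U : 𝓞 K) = q ((m : 𝓞 K) ^ (p - 1)) := by
    rw [Units.coe_prod, map_prod, Finset.prod_congr rfl fun d _ => hq d, Finset.prod_const,
      Finset.card_univ, ZMod.card_units p, map_pow]
  have hsq : (U : 𝓞 K) * (U : 𝓞 K) = 1 := by
    rw [← Units.val_mul, ← sq, prod_sigmaU_sq, Units.val_one]
  have hdvd := Ideal.mem_span_singleton.mp (Ideal.Quotient.eq.mp hU.symm)
  have hpm : ¬ (p : ℤ) ∣ m := fun h => by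
    refine H.lam_not_dvd_unit u ?_
    have h1 : z - 1 ∣ (m : 𝓞 K) := H.lam_dvd_prime_one.trans (by simpa using Int.cast_dvd_cast (α := 𝓞 K) _ _ h)
    simpa using dvd_add ((dvd_pow_self _ hp.ne_zero).trans hm) h1
  have hfer : ((m : ZMod p)) ^ (p - 1) = 1 :=
    ZMod.pow_card_sub_one_eq_one fun h => hpm ((ZMod.intCast_zmod_eq_zero_iff_dvd m p).mp h)
  rcases mul_self_eq_one_iff.mp hsq with h1 | h1
  · refine ⟨(m : 𝓞 K), ?_⟩
    rw [h1] at hdvd
    have := dvd_sub hm (hdvd.mul_left (m : 𝓞 K))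
    rwa [mul_sub, ← pow_succ', Nat.sub_add_cancel hp.one_le, mul_one,
      show (u : 𝓞 K) - (m : 𝓞 K) - ((m : 𝓞 K) ^ p - (m : 𝓞 K)) = (u : 𝓞 K) - (m : 𝓞 K) ^ p by ring] at this
  · exfalso
    rw [h1] at hdvd
    have h2 := H.int_dvd (m ^ (p - 1) + 1) (by push_cast; simpa using (dvd_pow_self _ hp.ne_zero).trans hdvd)
    rw [← ZMod.intCast_zmod_eq_zero_iff_dvd, Int.cast_add, Int.cast_pow, hfer, Int.cast_one] at h2
    have h4 : ((2 : ℕ) : ZMod p) = 0 := by exact_mod_cast (one_add_one_eq_two (R := ZMod p)) ▸ h2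
    have := Nat.le_of_dvd two_pos ((ZMod.natCast_eq_zero_iff 2 p).mp h4)
    omega

omit [NumberField K] [IsCyclotomicExtension {p} ℚ K] in
/-- The equation of `(u^(1/p) - y) / π`. -/
theorem exists_equation {π ε y u d : 𝓞 K} (hε : π ^ (p - 1) * ε = (p : 𝓞 K)) (hd : u - y ^ p = π ^ p * d) :
    ∃ g : (𝓞 K)[X], g.Monic ∧ C (π ^ p) * g = (C π * X + C y) ^ p - C u := by
  have hp : p.Prime := Fact.out
  let c : ℕ → 𝓞 K := fun i => ((p.choose i / p : ℕ) : 𝓞 K) * ε * π ^ (i - 1) * y ^ (p - i)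
  refine ⟨X ^ p + ((∑ i ∈ Finset.Ioo 0 p, C (c i) * X ^ i) - C d), monic_X_pow_add ?_, ?_⟩
  · refine (degree_sub_le _ _).trans_lt (max_lt ((degree_sum_le _ _).trans_lt ?_) (degree_C_le.trans_lt ?_))
    · refine (Finset.sup_lt_iff (WithBot.bot_lt_coe p)).mpr fun i hi => (degree_C_mul_X_pow_le i _).trans_lt ?_
      exact WithBot.coe_lt_coe.mpr (Finset.mem_Ioo.mp hi).2
    · exact WithBot.coe_lt_coe.mpr hp.pos
  · have hrange : Finset.range (p + 1) = insert 0 (insert p (Finset.Ioo 0 p)) := by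
      ext i; simp only [Finset.mem_range, Finset.mem_insert, Finset.mem_Ioo]; omega
    rw [add_pow, hrange, Finset.sum_insert (by simp [hp.ne_zero.symm]), Finset.sum_insert (by simp)]
    simp only [pow_zero, one_mul, tsub_self, Nat.sub_zero, Nat.choose_zero_right, Nat.choose_self, Nat.cast_one,
      mul_one]
    have hterm : ∀ i ∈ Finset.Ioo 0 p, C (π ^ p) * (C (c i) * X ^ i) =
        (C π * X) ^ i * C y ^ (p - i) * (p.choose i : (𝓞 K)[X]) := fun i hi => by
      obtain ⟨h0, hip⟩ := Finset.mem_Ioo.mp hi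
      have hq : π ^ p * c i = π ^ i * y ^ (p - i) * ((p.choose i : ℕ) : 𝓞 K) := by
        conv_rhs => rw [← Nat.mul_div_cancel' (hp.dvd_choose_self h0.ne' hip), Nat.cast_mul, ← hε]
        have hpow : π ^ p * π ^ (i - 1) = π ^ i * π ^ (p - 1) := by rw [← pow_add, ← pow_add]; congr 1; omega
        simp only [c]
        linear_combination ((p.choose i / p : ℕ) : 𝓞 K) * ε * y ^ (p - i) * hpow
      rw [← mul_assoc, ← C_mul, hq, C_mul, C_mul, C_pow, C_pow, map_natCast, mul_pow]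
      ring
    rw [mul_add, mul_sub, Finset.mul_sum, Finset.sum_congr rfl hterm, mul_pow, ← C_pow, ← C_pow, ← C_mul,
      ← hd, C_sub]
    ring

/-- **Kummer**: such a unit, no `p`-th power, gives an unramified cyclic extension of degree `p`. -/
theorem exists_unramified (h3 : 3 ≤ p) (u : (𝓞 K)ˣ) {n : ℤ} (hn : (p : 𝓞 K) ∣ (u : 𝓞 K) - (n : 𝓞 K))
    (hnp : ∀ v : (𝓞 K)ˣ, v ^ p ≠ u) :
    ∃ (L : Type) (_ : Field L) (_ : NumberField L) (_ : Algebra K L),
      IsGalois K L ∧ Module.finrank K L = p ∧ UnramifiedPrimes K L := by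
  have hp : p.Prime := Fact.out
  have : NeZero p := ⟨hp.ne_zero⟩
  have H := FA.Regular.cycloRing_zetaInt p K h3
  set π := FA.Ext.zetaInt p K - 1 with hπdef
  obtain ⟨y, d, hd⟩ := exists_pow_congr p K h3 u hn
  obtain ⟨ε, hε⟩ : Associated (π ^ (p - 1)) (p : 𝓞 K) := H.assoc
  obtain ⟨g, hgm, hg⟩ := exists_equation p K hε hd
  set a : K := ((u : 𝓞 K) : K) with ha
  have hirr : Irreducible (X ^ p - C a : K[X]) := X_pow_sub_C_irreducible_of_prime hp fun b hb => by
    have hbint : IsIntegral ℤ b := IsIntegral.of_pow hp.pos (hb ▸ (u : 𝓞 K).isIntegral_coe)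
    have hb' : (⟨b, hbint⟩ : 𝓞 K) ^ p = (u : 𝓞 K) := RingOfIntegers.ext hb
    have hunit : IsUnit (⟨b, hbint⟩ : 𝓞 K) := (isUnit_pow_iff hp.ne_zero).mp (hb' ▸ u.isUnit)
    exact hnp hunit.unit (Units.ext (by rw [Units.val_pow_eq_pow_val, IsUnit.unit_spec]; exact hb'))
  have : Fact (Irreducible (X ^ p - C a : K[X])) := ⟨hirr⟩
  let L := AdjoinRoot (X ^ p - C a : K[X])
  have : Module.Finite K L := (AdjoinRoot.powerBasis (X_pow_sub_C_ne_zero hp.pos a)).finite
  have : CharZero L := charZero_of_injective_algebraMap (algebraMap K L).injective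
  have : NumberField L := NumberField.of_module_finite K L
  have hζ : (primitiveRoots p K).Nonempty :=
    ⟨_, (mem_primitiveRoots hp.pos).mpr (IsCyclotomicExtension.zeta_spec p ℚ K)⟩
  have := isSplittingField_AdjoinRoot_X_pow_sub_C hζ hirr
  refine ⟨L, inferInstance, inferInstance, inferInstance, isGalois_of_isSplittingField_X_pow_sub_C hζ hirr L,
    finrank_of_isSplittingField_X_pow_sub_C hζ hirr L, ?_⟩
  set β : L := AdjoinRoot.root (X ^ p - C a : K[X])
  have hβp : β ^ p = algebraMap K L a := root_X_pow_sub_C_pow p a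
  set f := (algebraMap K L).comp (algebraMap (𝓞 K) K)
  have hπ0 : f π ≠ 0 := (map_ne_zero (algebraMap K L)).mpr (RingOfIntegers.coe_ne_zero_iff.mpr H.lam_prime.ne_zero)
  set t : L := (β - f y) / f π
  have hlin : f π * t + f y = β := by rw [mul_div_cancel₀ _ hπ0, sub_add_cancel]
  have ht : eval₂ f t g = 0 := by
    have h := congrArg (eval₂ f t) hg
    simp only [eval₂_mul, eval₂_sub, eval₂_pow, eval₂_add, eval₂_C, eval₂_X, hlin, hβp] at h
    rw [show f (u : 𝓞 K) = algebraMap K L a from rfl, sub_self] at h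
    exact (mul_eq_zero.mp h).resolve_left (by rw [map_pow]; exact pow_ne_zero _ hπ0)
  have hfA : f = algebraMap (𝓞 K) L := (IsScalarTower.algebraMap_eq (𝓞 K) K L).symm
  have hint : IsIntegral ℤ t := isIntegral_trans (R := ℤ) (A := 𝓞 K) t ⟨g, hgm, by rw [← hfA]; exact ht⟩
  let θ : 𝓞 L := ⟨t, hint⟩
  have hθ : ∀ q : (𝓞 K)[X], ((aeval θ q : 𝓞 L) : L) = eval₂ f t q := fun q => by
    rw [hfA, ← aeval_def]
    exact (aeval_algebraMap_apply L θ q).symm
  have hg0 : aeval θ g = 0 := RingOfIntegers.ext ((hθ g).trans (ht.trans (map_zero (algebraMap (𝓞 L) L)).symm))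
  have hbint : IsIntegral ℤ β :=
    IsIntegral.of_pow hp.pos (hβp ▸ (u : 𝓞 K).isIntegral_coe.map ((algebraMap K L).toIntAlgHom))
  let b₀ : 𝓞 L := ⟨β, hbint⟩
  have hbu : IsUnit b₀ := (isUnit_pow_iff hp.ne_zero).mp
    ((show b₀ ^ p = algebraMap (𝓞 K) (𝓞 L) u from RingOfIntegers.ext hβp) ▸ u.isUnit.map _)
  have hgu : IsUnit (aeval θ (derivative g)) := by
    have h := congrArg (fun q => eval₂ f t (derivative q)) hg
    simp only [derivative_C_mul, derivative_sub, derivative_pow, derivative_add, derivative_C, derivative_X, mul_one,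
      sub_zero, add_zero, eval₂_mul, eval₂_pow, eval₂_add, eval₂_C, eval₂_X, hlin] at h
    have he : aeval θ (derivative g) = algebraMap (𝓞 K) (𝓞 L) (ε : 𝓞 K) * b₀ ^ (p - 1) := by
      refine RingOfIntegers.ext (mul_left_cancel₀ (pow_ne_zero p hπ0) ?_)
      rw [hθ, ← map_pow, h]
      show _ = f (π ^ p) * (f (ε : 𝓞 K) * β ^ (p - 1))
      rw [map_pow]
      rw [show f ((p : ℕ) : 𝓞 K) = f π ^ (p - 1) * f (ε : 𝓞 K) by rw [← map_pow, ← map_mul, hε],
        show f π ^ p = f π ^ (p - 1) * f π by rw [← pow_succ, Nat.sub_add_cancel hp.one_le]]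
      ring
    rw [he]
    exact (ε.isUnit.map _).mul (hbu.pow _)
  have hθint : IsIntegral (𝓞 K) θ := IsIntegralClosure.isIntegral (𝓞 K) L θ
  have hmu : IsUnit (aeval θ (derivative (minpoly (𝓞 K) θ))) := by
    obtain ⟨r, hr⟩ := minpoly.isIntegrallyClosed_dvd hθint hg0
    rw [hr, derivative_mul, map_add, map_mul, map_mul, minpoly.aeval, zero_mul, add_zero] at hgu
    exact isUnit_of_mul_isUnit_left hgu
  have hadj : Algebra.adjoin K {algebraMap (𝓞 L) L θ} = ⊤ := by
    rw [eq_top_iff, ← AdjoinRoot.adjoinRoot_eq_top, Algebra.adjoin_le_iff, Set.singleton_subset_iff]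
    show β ∈ Algebra.adjoin K {t}
    rw [← hlin]
    exact add_mem (mul_mem (Subalgebra.algebraMap_mem _ _) (Algebra.self_mem_adjoin_singleton K t))
      (Subalgebra.algebraMap_mem _ _)
  have htop : differentIdeal (𝓞 K) (𝓞 L) = ⊤ :=
    Ideal.eq_top_of_isUnit_mem _ (aeval_derivative_mem_differentIdeal (𝓞 K) K L θ hadj) hmu
  intro P hP hP0
  have : P.IsPrime := hP
  have hnd : ¬ P ∣ differentIdeal (𝓞 K) (𝓞 L) := by
    rw [htop, Ideal.dvd_iff_le]
    exact fun h => hP.ne_top (top_le_iff.mp h)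
  have := not_dvd_differentIdeal_iff.mp hnd
  exact Ideal.ramificationIdx_eq_one_of_isUnramifiedAt

end FA.ClassField94
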