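import Fermat.Agent.ClassField94.Capitulation
import Fermat.Agent.ClassField94.Main
import Mathlib.NumberTheory.Cyclotomic.Gal
import Mathlib.RingTheory.ZMod.UnitsCyclic

/-!
# From `ℚ(ζ_p)` to `ℚ(ζ_(p^(n+1)))`

The extension is cyclic, generated by `ζ ↦ ζ^(1+p)`, and its roots of unity of relative norm one are quotients
`η/σ η`, so no minus class of `ℚ(ζ_p)` becomes principal.
-/

set_option autoImplicit false

noncomputable section

open NumberField
open scoped nonZeroDivisors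

namespace FA.ClassField94

variable {p : ℕ} [Fact p.Prime]

/-- `1 + (1 + p) + … + (1 + p)^(p^n - 1)` is exactly divisible by `p^n`. -/
theorem exists_geomSum_eq (hp2 : p ≠ 2) (n : ℕ) :
    ∃ s : ℕ, (∑ i ∈ Finset.range (p ^ n), (p + 1) ^ i) = p ^ n * s ∧ ¬ p ∣ s := by
  have hp : p.Prime := Fact.out
  set S := ∑ i ∈ Finset.range (p ^ n), (p + 1) ^ i
  have h := geom_sum_mul_add p (p ^ n)
  change S * p + 1 = (p + 1) ^ p ^ n at h
  have h1 : p ^ (n + 1) ∣ S * p := by
    rw [← ZMod.natCast_eq_zero_iff]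
    have e := congrArg (fun t : ℕ => (t : ZMod (p ^ (n + 1)))) h
    push_cast at e
    rw [add_comm (p : ZMod (p ^ (n + 1))) 1] at e
    conv_rhs at e => rw [← ZMod.orderOf_one_add_prime hp hp2 n, pow_orderOf_eq_one]
    push_cast
    simpa using e
  have h2 : ¬ p ^ (n + 2) ∣ S * p := fun hd => by
    rw [← ZMod.natCast_eq_zero_iff] at hd
    have e := congrArg (fun t : ℕ => (t : ZMod (p ^ (n + 1 + 1)))) h
    push_cast at e hd
    rw [hd, zero_add, add_comm (p : ZMod (p ^ (n + 1 + 1))) 1] at e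
    have hdvd := orderOf_dvd_of_pow_eq_one e.symm
    rw [ZMod.orderOf_one_add_prime hp hp2 (n + 1), Nat.pow_dvd_pow_iff_le_right hp.one_lt] at hdvd
    omega
  obtain ⟨s, hs⟩ := Nat.dvd_of_mul_dvd_mul_right hp.pos (pow_succ p n ▸ h1)
  refine ⟨s, hs, fun hps => h2 ?_⟩
  obtain ⟨t, rfl⟩ := hps
  exact ⟨t, by rw [hs, pow_succ, pow_succ]; ring⟩

variable {n : ℕ} {K L : Type} [Field K] [NumberField K] [IsCyclotomicExtension {p} ℚ K] [Field L] [NumberField L]
  [IsCyclotomicExtension {p ^ (n + 1)} ℚ L] [Algebra K L]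

include p n in
omit [IsCyclotomicExtension {p} ℚ K] in
/-- The extension is Galois. -/
theorem isGalois_tower : IsGalois K L :=
  have : NeZero (p ^ (n + 1)) := ⟨pow_ne_zero _ (Fact.out : p.Prime).ne_zero⟩
  have : IsGalois ℚ L := IsCyclotomicExtension.isGalois {p ^ (n + 1)} ℚ L
  IsGalois.tower_top_of_isGalois ℚ K L

/-- Its degree. -/
theorem finrank_tower : Module.finrank K L = p ^ n := by
  have hp : p.Prime := Fact.out
  have : NeZero p := ⟨hp.ne_zero⟩
  have : NeZero (p ^ (n + 1)) := ⟨pow_ne_zero _ hp.ne_zero⟩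
  have h := Module.finrank_mul_finrank ℚ K L
  rw [IsCyclotomicExtension.Rat.finrank p K, IsCyclotomicExtension.Rat.finrank (p ^ (n + 1)) L, Nat.totient_prime hp,
    Nat.totient_prime_pow_succ hp, mul_comm (p ^ n)] at h
  exact Nat.eq_of_mul_eq_mul_left (Nat.sub_pos_of_lt hp.one_lt) h

/-- The generator `ζ ↦ ζ^(1+p)`. -/
theorem exists_tower_generator (hp2 : p ≠ 2) {ζ : L} (hζ : IsPrimitiveRoot ζ (p ^ (n + 1))) :
    ∃ σ : L ≃ₐ[K] L, σ ζ = ζ ^ (p + 1) ∧ (∀ g, g ∈ Subgroup.zpowers σ) ∧ orderOf σ = p ^ n := by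
  have hp : p.Prime := Fact.out
  have : NeZero p := ⟨hp.ne_zero⟩
  have : NeZero (p ^ (n + 1)) := ⟨pow_ne_zero _ hp.ne_zero⟩
  have := isGalois_tower (p := p) (n := n) (K := K) (L := L)
  have hcop : Nat.Coprime (p + 1) (p ^ (n + 1)) :=
    Nat.Coprime.pow_right _ ((Nat.coprime_self_add_left (m := p) (n := 1)).mpr (Nat.coprime_one_left p))
  set σ₀ : L ≃ₐ[ℚ] L := (IsCyclotomicExtension.Rat.galEquivZMod (p ^ (n + 1)) L).symm (ZMod.unitOfCoprime (p + 1) hcop)
  have hσ₀ : ∀ x : L, x ^ p ^ (n + 1) = 1 → σ₀ x = x ^ (p + 1) := fun x hx => by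
    rw [IsCyclotomicExtension.Rat.galEquivZMod_apply_of_pow_eq (p ^ (n + 1)) L σ₀ hx, MulEquiv.apply_symm_apply,
      ZMod.coe_unitOfCoprime, ZMod.val_natCast]
    exact (pow_eq_pow_mod _ hx).symm
  have hz := IsCyclotomicExtension.zeta_spec p ℚ K
  set w : L := algebraMap K L (IsCyclotomicExtension.zeta p ℚ K)
  have hw : w ^ p = 1 := by rw [← map_pow, hz.pow_eq_one, map_one]
  have hfix : ∀ x : K, σ₀ (algebraMap K L x) = algebraMap K L x := by
    have h : σ₀.toAlgHom.comp (IsScalarTower.toAlgHom ℚ K L) = IsScalarTower.toAlgHom ℚ K L := by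
      refine (hz.powerBasis ℚ).algHom_ext ?_
      rw [IsPrimitiveRoot.powerBasis_gen]
      show σ₀ w = w
      rw [hσ₀ w (by rw [pow_succ', pow_mul, hw, one_pow]), pow_succ, hw, one_mul]
    exact fun x => DFunLike.congr_fun h x
  let σ : L ≃ₐ[K] L := AlgEquiv.ofRingEquiv (f := σ₀.toRingEquiv) hfix
  have hσζ : σ ζ = ζ ^ (p + 1) := hσ₀ ζ hζ.pow_eq_one
  have hpow : ∀ k : ℕ, (σ ^ k) ζ = ζ ^ (p + 1) ^ k := fun k => by
    induction k with
    | zero => simp
    | succ k ih => rw [pow_succ, AlgEquiv.mul_apply, hσζ, map_pow, ih, ← pow_mul, ← pow_succ]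
  have hcard : Nat.card (L ≃ₐ[K] L) = p ^ n := by rw [IsGalois.card_aut_eq_finrank, finrank_tower (p := p) (n := n)]
  have hdvd : p ^ n ∣ orderOf σ := by
    have h := hpow (orderOf σ)
    rw [pow_orderOf_eq_one, AlgEquiv.one_apply] at h
    nth_rewrite 1 [← pow_one ζ] at h
    rw [(hζ.isOfFinOrder (NeZero.ne _)).pow_eq_pow_iff_modEq, ← hζ.eq_orderOf, ← ZMod.natCast_eq_natCast_iff] at h
    push_cast at h
    rw [← ZMod.orderOf_one_add_prime hp hp2 n]
    rw [add_comm (p : ZMod (p ^ (n + 1))) 1] at h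
    exact orderOf_dvd_of_pow_eq_one h.symm
  have hord : orderOf σ = p ^ n := Nat.dvd_antisymm (hcard ▸ orderOf_dvd_natCard σ) hdvd
  refine ⟨σ, hσζ, fun g => ?_, hord⟩
  rw [show Subgroup.zpowers σ = ⊤ from Subgroup.eq_top_of_card_eq _ (by rw [Nat.card_zpowers, hord, hcard])]
  trivial

variable (n) in
include n in
/-- **No minus class of `ℚ(ζ_p)` becomes principal in the tower.** -/
theorem minus_injective [IsCMField K] [IsCMField L] (hp2 : p ≠ 2) {x : ClassGroup (𝓞 K)}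
    (hminus : conjClass K x = x⁻¹) (hx : ClassGroup.extendedHom (𝓞 K) (𝓞 L) x = 1) : x = 1 := by
  have hp : p.Prime := Fact.out
  have : NeZero (p ^ (n + 1)) := ⟨pow_ne_zero _ hp.ne_zero⟩
  have := isGalois_tower (p := p) (n := n) (K := K) (L := L)
  have hodd : Odd p := hp.odd_of_ne_two hp2
  have hζ := IsCyclotomicExtension.zeta_spec (p ^ (n + 1)) ℚ L
  set ζ := IsCyclotomicExtension.zeta (p ^ (n + 1)) ℚ L
  obtain ⟨σ, hσζ, hσ, hord⟩ := exists_tower_generator (K := K) hp2 hζ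
  obtain ⟨zu, hzu⟩ := hζ.toInteger_isPrimitiveRoot.isUnit (NeZero.ne _)
  have hzu' : IsPrimitiveRoot zu (p ^ (n + 1)) :=
    IsPrimitiveRoot.coe_units_iff.mp (by rw [hzu]; exact hζ.toInteger_isPrimitiveRoot)
  have hact : FA.CycloTower.actU σ zu = zu ^ (p + 1) := by
    refine Units.ext (RingOfIntegers.ext ?_)
    rw [FA.CycloTower.actU_coe, FA.CycloTower.coe_smul_int, Units.val_pow_eq_pow_val, hzu]
    show σ ζ = _
    rw [hσζ]
    rfl
  have hactk : ∀ k : ℕ, FA.CycloTower.actU (σ ^ k) zu = zu ^ (p + 1) ^ k := fun k => by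
    induction k with
    | zero => exact Units.ext ((one_smul _ _).trans (by simp))
    | succ k ih =>
      have e : FA.CycloTower.actU (σ ^ (k + 1)) zu = FA.CycloTower.actU (σ ^ k) (FA.CycloTower.actU σ zu) :=
        Units.ext (by rw [pow_succ]; exact mul_smul _ _ _)
      rw [e, hact, map_pow, ih, ← pow_mul, ← pow_succ]
  obtain ⟨s, hs, hps⟩ := exists_geomSum_eq (p := p) hp2 n
  have hN : inclUnits K L (FA.CycloTower.normU K zu) = zu ^ (p ^ n * s) := by
    classical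
    rw [inclUnits_normU, ← hs, ← Finset.prod_pow_eq_pow_sum]
    refine (Finset.prod_bij (fun k _ => σ ^ k) (fun k _ => Finset.mem_univ _) (fun a ha b hb h => ?_) (fun g _ => ?_)
      fun k _ => (hactk k).symm).symm
    · rw [Finset.mem_range, ← hord] at ha hb
      exact pow_injOn_Iio_orderOf ha hb h
    · obtain ⟨i, rfl⟩ := mem_powers_iff_mem_zpowers.mpr (hσ g)
      exact ⟨i % p ^ n, Finset.mem_range.mpr (Nat.mod_lt _ (pow_pos hp.pos n)),
        by rw [← hord]; exact pow_mod_orderOf σ i⟩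
  have hneg : inclUnits K L (FA.CycloTower.normU K (-1 : (𝓞 L)ˣ)) = -1 := by
    refine Units.ext (RingOfIntegers.ext ?_)
    show algebraMap K L (Algebra.norm K (-1 : L)) = (-1 : L)
    rw [show (-1 : L) = algebraMap K L (-1) by simp, Algebra.norm_algebraMap, finrank_tower (p := p) (n := n),
      hodd.pow.neg_one_pow]
  have hμ : ∀ ξ ∈ Units.torsion L, FA.CycloTower.normU K ξ = 1 →
      ∃ η : (𝓞 L)ˣ, ξ = η / FA.CycloTower.actU σ η := by
    intro ξ hξ hN1
    have hfin : IsOfFinOrder ((ξ : 𝓞 L) : L) := ((algebraMap (𝓞 L) L).toMonoidHom.comp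
      (Units.coeHom (𝓞 L))).isOfFinOrder ((CommGroup.mem_torsion (G := (𝓞 L)ˣ) ξ).mp hξ)
    obtain ⟨r, hr⟩ := hζ.exists_neg_pow_of_isOfFinOrder hodd.pow hfin
    have hξr : ξ = ((-1) * zu) ^ r := Units.ext (RingOfIntegers.ext (by
      simp only [Units.val_pow_eq_pow_val, neg_one_mul, Units.val_neg, hzu, map_pow, map_neg]
      rw [hr]
      rfl))
    have h1 : (-1 : (𝓞 L)ˣ) ^ r * zu ^ (p ^ n * s * r) = 1 := by
      have h := congrArg (inclUnits K L) hN1
      rw [hξr, map_pow, map_mul, map_one, map_pow, map_mul, hneg, hN, mul_pow, ← pow_mul] at h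
      exact h
    have h2 : zu ^ (p ^ n * s * r * 2) = 1 := by
      have h := congrArg (· ^ 2) h1
      simpa [mul_pow, ← pow_mul, mul_comm r 2, pow_mul (-1 : (𝓞 L)ˣ) 2] using h
    have hpr : p ∣ r := by
      have h3 := (hzu'.pow_eq_one_iff_dvd _).mp h2
      rw [pow_succ, show p ^ n * s * r * 2 = p ^ n * (s * r * 2) by ring] at h3
      rcases hp.dvd_mul.mp (Nat.dvd_of_mul_dvd_mul_left (pow_pos hp.pos n) h3) with h4 | h4
      · exact (hp.dvd_mul.mp h4).resolve_left hps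
      · exact absurd ((Nat.prime_dvd_prime_iff_eq hp Nat.prime_two).mp h4) hp2
    obtain ⟨j, rfl⟩ := hpr
    have hsign : (-1 : (𝓞 L)ˣ) ^ (p * j) = 1 := by
      rwa [show p ^ n * s * (p * j) = p ^ (n + 1) * (s * j) by ring, pow_mul zu, hzu'.pow_eq_one, one_pow,
        mul_one] at h1
    refine ⟨(zu ^ j)⁻¹, ?_⟩
    rw [hξr, mul_pow, hsign, one_mul, map_inv, map_pow, hact, inv_div_inv, ← pow_mul,
      show (p + 1) * j = p * j + j by ring, pow_add, mul_div_cancel_right]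
  have hsq := sq_eq_one_of_capitulation hσ hμ hminus hx
  have hdeg := pow_finrank_eq_one hx
  rw [finrank_tower (p := p) (n := n)] at hdeg
  refine orderOf_eq_one_iff.mp (Nat.eq_one_of_dvd_coprimes ?_ (orderOf_dvd_of_pow_eq_one hsq)
    (orderOf_dvd_of_pow_eq_one hdeg))
  exact Nat.Coprime.pow_right _ ((Nat.coprime_primes Nat.prime_two hp).mpr hp2.symm)

variable (n) in
include n in
/-- No class of order prime to `p` becomes principal. -/
theorem coprime_injective {x : ClassGroup (𝓞 K)} (hord : ¬ p ∣ orderOf x)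
    (hx : ClassGroup.extendedHom (𝓞 K) (𝓞 L) x = 1) : x = 1 := by
  have h := pow_finrank_eq_one hx
  rw [finrank_tower (p := p) (n := n)] at h
  exact orderOf_eq_one_iff.mp (Nat.eq_one_of_dvd_coprimes
    (Nat.Coprime.pow_right _ (((Fact.out : p.Prime).coprime_iff_not_dvd.mpr hord).symm)) dvd_rfl
    (orderOf_dvd_of_pow_eq_one h))

end FA.ClassField94
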