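import Fermat.Agent.Regular.CriterionConverse

/-!
# An irregular prime divides the relative class number

If `p` divides the numerator of some `B_k`, `k` even `≤ p - 3`, every power of `p` dividing `h(ℚ(ζ_p)⁺)`
divides `h(ℚ(ζ_p))` with one further factor `p`: the squared relative class number formula read modulo a
higher power of `p` at the Teichmüller character.
-/

set_option autoImplicit false

noncomputable section

open NumberField Polynomial

namespace FA.ClassField94

open FA.Regular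

variable {p : ℕ} [Fact p.Prime] {K : Type*} [Field K] [NumberField K] [IsCyclotomicExtension {p} ℚ K]

/-- **`p` divides `h/h⁺` at an irregular prime.** -/
theorem pow_succ_dvd_classNumber [IsCMField K] (h5 : 5 ≤ p) {k : ℕ} (hev : Even k) (hk : 2 ≤ k)
    (hkp : k ≤ p - 3) (hB : (p : ℤ) ∣ (_root_.bernoulli k).num) {e : ℕ}
    (he : p ^ e ∣ classNumber (maximalRealSubfield K)) : p ^ (e + 1) ∣ classNumber K := by
  have hp : p.Prime := Fact.out
  have hodd := hp.eq_two_or_odd
  have : NeZero p := ⟨hp.ne_zero⟩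
  obtain ⟨g, hg⟩ := IsCyclic.exists_generator (α := (ZMod p)ˣ)
  set m := (p - 1) / 2 with hm
  set N := 2 * m + 2 * e with hNdef
  have hN : N ≠ 0 := by omega
  obtain ⟨ω, hω, hroot⟩ := exists_teichmuller hN hg
  set t := (ω g : ZMod (p ^ N))
  have hz := Complex.isPrimitiveRoot_exp (p - 1) (by omega)
  have hvan := aeval_minusPoly_eq_zero (K := K) (by omega) hg hz
  have hdvd := minpoly.isIntegrallyClosed_dvd (hz.isIntegral (by omega)) hvan
  rw [← cyclotomic_eq_minpoly hz (by omega)] at hdvd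
  have hzero := map_dvd (aeval t) hdvd
  rw [hroot, zero_dvd_iff] at hzero
  have hgs : ∀ i, aeval t (genSum g ((X : ℤ[X]) ^ i)) = genSum g (t ^ i) := fun i => by
    rw [show aeval t (genSum g ((X : ℤ[X]) ^ i)) = (aeval t : ℤ[X] →ₐ[ℤ] _).toRingHom
      (genSum g ((X : ℤ[X]) ^ i)) from rfl, map_genSum]
    simp
  simp only [map_sub, map_mul, map_pow, map_prod, hgs, eq_intCast, map_intCast] at hzero
  have hprod : (p : ZMod (p ^ N)) ^ m ∣ ∏ i ∈ oddIdx p, genSum g (t ^ i) := by
    have hi0 : k - 1 ∈ (oddIdx p).erase (p - 2) := by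
      simp only [oddIdx, Finset.mem_erase, Finset.mem_filter, Finset.mem_range, Nat.odd_iff]
      rw [Nat.even_iff] at hev
      omega
    refine dvd_trans ?_ (Finset.prod_dvd_prod_of_subset _ _ _ (Finset.erase_subset (p - 2) _))
    rw [← Finset.mul_prod_erase _ _ hi0]
    have hcard : (((oddIdx p).erase (p - 2)).erase (k - 1)).card + 2 = m := by
      rw [Finset.card_erase_of_mem hi0, Finset.card_erase_of_mem (by
        simp only [oddIdx, Finset.mem_filter, Finset.mem_range, Nat.odd_iff]; omega),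
        card_oddIdx]
      rw [Nat.even_iff] at hev
      omega
    have hrange : ∀ i ∈ (oddIdx p).erase (p - 2), Odd i ∧ i + 1 < p - 1 := by
      intro i hi
      simp only [oddIdx, Finset.mem_erase, Finset.mem_filter, Finset.mem_range, Nat.odd_iff] at hi ⊢
      omega
    rw [show (p : ZMod (p ^ N)) ^ m = (p : ZMod (p ^ N)) ^ 2 *
      ∏ _i ∈ ((oddIdx p).erase (p - 2)).erase (k - 1), (p : ZMod (p ^ N)) by
        rw [Finset.prod_const, ← pow_add, add_comm, hcard]]
    refine mul_dvd_mul ?_ (Finset.prod_dvd_prod_of_dvd _ _ fun i hi => ?_)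
    · obtain ⟨w, hw, hwB⟩ := genSum_teichmuller h5 hN hg ω hω (hrange _ hi0).1 (hrange _ hi0).2
      rw [hw, pow_two]
      exact mul_dvd_mul_left _ (hwB (by rwa [Nat.sub_add_cancel (by omega : 1 ≤ k)]))
    · obtain ⟨h1, h2⟩ := hrange i (Finset.mem_of_mem_erase hi)
      obtain ⟨w, hw, -⟩ := genSum_teichmuller h5 hN hg ω hω h1 h2
      exact ⟨w, hw⟩
  obtain ⟨w, hw⟩ := hprod
  obtain ⟨c, hc⟩ : p ^ e ∣ classNumber (maximalRealSubfield K) * IsCMField.indexRealUnits K :=
    he.mul_right _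
  simp only [Int.cast_natCast] at hzero
  have h0 : (p : ZMod (p ^ N)) ^ N = 0 := by rw [← Nat.cast_pow, ZMod.natCast_self]
  rw [hw, hc, Nat.cast_mul (p ^ e) c, Nat.cast_pow p e,
    show ((p : ZMod (p ^ N)) ^ e * (c : ZMod (p ^ N))) ^ 2 * ((p : ZMod (p ^ N)) ^ m * w) ^ 2 =
      (p : ZMod (p ^ N)) ^ N * ((c : ZMod (p ^ N)) ^ 2 * w ^ 2) by
        simp only [show N = 2 * m + 2 * e from hNdef, pow_add, pow_mul, mul_pow]; ring,
    h0, zero_mul, zero_sub, neg_eq_zero, ZMod.natCast_eq_zero_iff] at hzero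
  obtain ⟨a, -, haD⟩ := (Nat.dvd_prime_pow hp).mp
    ((dvd_pow_self _ two_ne_zero).trans (natAbs_discr_real_sq_dvd (K := K) (p := p)))
  have hsqD := natAbs_discr_real_sq_dvd (K := K) (p := p)
  rw [haD, ← pow_mul, Nat.pow_dvd_pow_iff_le_right hp.one_lt] at hsqD
  rw [haD, show 4 ^ (m - 1) * p ^ (m - 1) * p ^ a * classNumber K ^ 2 =
    p ^ (m - 1 + a) * (4 ^ (m - 1) * classNumber K ^ 2) by rw [pow_add]; ring] at hzero
  have hle : m - 1 + a + (2 * e + 2) ≤ N := by omega
  have h1 : p ^ (2 * e + 2) ∣ 4 ^ (m - 1) * classNumber K ^ 2 := by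
    refine Nat.dvd_of_mul_dvd_mul_left (pow_pos hp.pos (m - 1 + a)) ?_
    rw [← pow_add]
    exact (pow_dvd_pow p hle).trans hzero
  have hcop : Nat.Coprime (p ^ (2 * e + 2)) (4 ^ (m - 1)) := by
    refine Nat.Coprime.pow _ _ ((Nat.Prime.coprime_iff_not_dvd hp).mpr fun h => ?_)
    have := Nat.le_of_dvd (by norm_num) h
    omega
  have h2 := hcop.dvd_of_dvd_mul_left h1
  rw [show 2 * e + 2 = (e + 1) * 2 by ring, pow_mul] at h2
  exact (Nat.pow_dvd_pow_iff two_ne_zero).mp h2

end FA.ClassField94
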