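import Fermat.Agent.ClassField94.Main

/-!
# Solvable unramified extensions

A nontrivial solvable Galois extension unramified everywhere has a step of prime degree over the base, so a prime
dividing its degree divides the class number.
-/

set_option autoImplicit false

noncomputable section

open NumberField

namespace FA.ClassField94

/-- A nontrivial finite solvable group has a normal subgroup of prime index. -/
theorem exists_normal_prime_index {G : Type*} [Group G] [Finite G] [Group.IsSolvable G] [Nontrivial G] :
    ∃ H : Subgroup G, H.Normal ∧ H.index.Prime := by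
  obtain ⟨H, hH, hle⟩ := (eq_top_or_exists_le_coatom (commutator G)).resolve_left
    (Group.IsSolvable.commutator_lt_top_of_nontrivial G).ne
  have hn : H.Normal := Subgroup.Normal.of_commutator_le G hle
  refine ⟨H, hn, ?_⟩
  rw [Subgroup.index_eq_card]
  let π : G →* G ⧸ H := QuotientGroup.mk' H
  have hnt : Nontrivial (G ⧸ H) := QuotientGroup.nontrivial_iff.mpr hH.1
  have hgen : ∀ x : G ⧸ H, x ≠ 1 → Subgroup.zpowers x = ⊤ := fun x hx => by
    obtain ⟨g, rfl⟩ := QuotientGroup.mk'_surjective H x
    have hlt : H < (Subgroup.zpowers (π g)).comap π := by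
      refine lt_of_le_of_ne (fun a ha => ?_) fun e => hx ((QuotientGroup.eq_one_iff g).mpr ?_)
      · rw [Subgroup.mem_comap, show π a = 1 from (QuotientGroup.eq_one_iff a).mpr ha]
        exact one_mem _
      · have hg : g ∈ (Subgroup.zpowers (π g)).comap π := Subgroup.mem_zpowers _
        rwa [← e] at hg
    rw [← Subgroup.map_comap_eq_self_of_surjective (QuotientGroup.mk'_surjective H) (Subgroup.zpowers (π g)),
      hH.2 _ hlt]
    exact Subgroup.map_top_of_surjective _ (QuotientGroup.mk'_surjective H)
  by_contra hnp
  obtain ⟨x, hx⟩ := exists_ne (1 : G ⧸ H)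
  have hord : orderOf x = Nat.card (G ⧸ H) := by rw [← Nat.card_zpowers, hgen x hx, Subgroup.card_top]
  have hone : 1 < Nat.card (G ⧸ H) := Finite.one_lt_card
  obtain ⟨d, hd, hd1, hdn⟩ := Nat.exists_dvd_of_not_prime2 hone hnp
  have hxd : x ^ d ≠ 1 := fun e => by
    have := Nat.le_of_dvd (by omega) (orderOf_dvd_of_pow_eq_one e)
    omega
  have h2 : orderOf (x ^ d) = Nat.card (G ⧸ H) := by rw [← Nat.card_zpowers, hgen _ hxd, Subgroup.card_top]
  rw [orderOf_pow_of_dvd (by omega) (hord ▸ hd), hord] at h2
  have := Nat.div_lt_self (show 0 < Nat.card (G ⧸ H) by omega) (show 1 < d by omega)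
  omega

variable {K L : Type} [Field K] [NumberField K] [Field L] [NumberField L] [Algebra K L]

/-- Intermediate fields of unramified extensions. -/
theorem UnramifiedPrimes.intermediate (hunr : UnramifiedPrimes K L) (F : IntermediateField K L) [NumberField F] :
    UnramifiedPrimes K F := fun P hP hP0 => by
  have : P.IsMaximal := hP.isMaximal hP0
  obtain ⟨Q, hQ, hQP⟩ := Ideal.exists_maximal_ideal_liesOver_of_isIntegral (S := 𝓞 L) P
  have hQ0 : Q ≠ ⊥ := Ideal.ne_bot_of_liesOver_of_ne_bot hP0 Q
  have h := Ideal.ramificationIdx_tower (R := 𝓞 K) P Q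
  rw [hunr Q hQ.isPrime hQ0] at h
  exact Nat.eq_one_of_mul_eq_one_right h.symm

/-- **Solvable unramified extensions need class number**. -/
theorem exists_prime_dvd_classNumber [IsGalois K L] [IsUnramifiedAtInfinitePlaces K L]
    [Group.IsSolvable (L ≃ₐ[K] L)] (hunr : UnramifiedPrimes K L) (hdeg : Module.finrank K L ≠ 1) :
    ∃ l : ℕ, l.Prime ∧ l ∣ Module.finrank K L ∧ l ∣ classNumber K := by
  have : FiniteDimensional K L := inferInstance
  have hcard : Nat.card (L ≃ₐ[K] L) = Module.finrank K L := IsGalois.card_aut_eq_finrank K L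
  have : Nontrivial (L ≃ₐ[K] L) := by
    rw [← Finite.one_lt_card_iff_nontrivial, hcard]
    have : 0 < Module.finrank K L := Module.finrank_pos
    omega
  obtain ⟨H, hn, hl⟩ := exists_normal_prime_index (G := L ≃ₐ[K] L)
  let F : IntermediateField K L := IntermediateField.fixedField H
  have : IsGalois K F := IsGalois.of_fixedField_normal_subgroup H
  have : NumberField F := NumberField.of_module_finite K F
  have hF : Module.finrank K F = H.index := by
    have h1 : Module.finrank K F * Module.finrank F L = Module.finrank K L := Module.finrank_mul_finrank K F L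
    rw [IntermediateField.finrank_fixedField_eq_card, ← hcard, ← H.card_mul_index, mul_comm] at h1
    exact Nat.eq_of_mul_eq_mul_left Nat.card_pos h1
  have : IsUnramifiedAtInfinitePlaces K F := IsUnramifiedAtInfinitePlaces.bot K F L
  have : Fact H.index.Prime := ⟨hl⟩
  refine ⟨H.index, hl, hcard ▸ H.index_dvd_card, dvd_classNumber hF (hunr.intermediate F)⟩

end FA.ClassField94
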